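/-
TW-FLAT (task 336), local toolkit I, part 1: the elementary items

* `rootInj : Loc.RootInj`, `rootFix : Loc.RootFix`, `inertiaRes : Loc.InertiaRes`,
  `decompMem : Loc.DecompMem`, `zetaUnit : Loc.ZetaUnit`;
* (F1) `exists_root_neg_p` : an `e`-th root `ϖ` of `−p`, in the maximal ideal of `P`;
* (F2) `exists_frobenius` : a Frobenius element `φ ∈ D` with `φ x ≡ x ^ p` on `P` and
  `φ ζ = ζ ^ p` on the roots of unity of order prime to `p`;
* (F3) `inertia_zeta_sub_one_div` : `σ ζ = ζ ^ a` ⟹ `σ (ζ − 1) / (ζ − 1) ≡ a` modulo the maximal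
  ideal (`ζ` a `p`-th root of unity, `ζ ≠ 1`).

`Arch`, `Teich` are in `TW/Flat/Local/Teich.lean`, `Unr` is in `TW/Flat/Local/Unr.lean`.
-/
import Mathlib
import Fermat.Agent.TW.Flat.Interfaces
import Fermat.Agent.PT.G.UnrTriv
import Fermat.Agent.TW.Local.InertiaCyclo

set_option autoImplicit false

namespace Fermat.Agent.TW.Flat.Loc.Basic

open Fermat.Agent.S53 Fermat.Agent.TW Fermat.Agent.TW.Flat

local notation "Qb" => AlgebraicClosure ℚ

/-- [ROOT-INJ] -/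
theorem rootInj : Loc.RootInj := by
  intro p _ P hP ζ ζ' m _ hpm hζ hζ' h
  exact Fermat.Agent.PT.G.eq_of_sub_mem_nonunits_of_pow_eq_one_of_not_dvd P Fact.out hpm hP hζ hζ' h

/-- [ROOT-FIX] -/
theorem rootFix : Loc.RootFix := by
  intro p _ P hP ζ m _ hpm hζ σ hσ
  exact Fermat.Agent.PT.G.inertia_apply_root Fact.out P hP hσ hpm hζ

/-- [INERTIA-RES] -/
theorem inertiaRes : Loc.InertiaRes := by
  intro P σ hσ x hx
  exact ((Fermat.Agent.PT.Levels.mem_inertiaSubgroupIn_iff P σ).mp hσ).2 x hx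

/-- [DECOMP-MEM] -/
theorem decompMem : Loc.DecompMem := by
  intro P σ hσ x
  exact Fermat.Agent.PT.G.apply_mem_iff_of_mem_decomp hσ x

/-- Inertia is contained in the decomposition group. -/
theorem inertia_le_decomp (P : ValuationSubring Qb) :
    P.inertiaSubgroupIn ℚ ≤ P.decompositionSubgroup ℚ :=
  fun σ hσ => ((Fermat.Agent.PT.Levels.mem_inertiaSubgroupIn_iff P σ).mp hσ).1

/-- `IsPUnit` in terms of the valuation. -/
theorem isPUnit_iff_valuation_eq_one (P : ValuationSubring Qb) (z : Qb) :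
    IsPUnit P z ↔ P.valuation z = 1 := by
  constructor
  · rintro ⟨hz0, hz, hz'⟩
    rw [← P.valuation_le_one_iff] at hz hz'
    rw [map_inv₀] at hz'
    have h0 : 0 < P.valuation z := zero_lt_iff.mpr ((Valuation.ne_zero_iff _).mpr hz0)
    exact le_antisymm hz ((inv_le_one₀ h0).mp hz')
  · intro h
    refine ⟨?_, ?_, ?_⟩
    · rintro rfl
      rw [map_zero] at h
      exact zero_ne_one h
    · rw [← P.valuation_le_one_iff, h]
    · rw [← P.valuation_le_one_iff, map_inv₀, h, inv_one]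

/-- (F1) An `e`-th root of `−p`; it lies in the maximal ideal of `P`. -/
theorem exists_root_neg_p (p : ℕ) [Fact p.Prime] (P : ValuationSubring Qb)
    (hP : P.LiesOverPrime p) (e : ℕ) (he : 0 < e) :
    ∃ ϖ : Qb, ϖ ^ e = -(p : Qb) ∧ ϖ ≠ 0 ∧ ϖ ∈ P.nonunits := by
  have hp : p.Prime := Fact.out
  obtain ⟨ϖ, hϖ⟩ := IsAlgClosed.exists_pow_nat_eq (-(p : Qb)) he
  have hp0 : (p : Qb) ≠ 0 := by exact_mod_cast hp.ne_zero
  refine ⟨ϖ, hϖ, ?_, ?_⟩
  · rintro rfl
    rw [zero_pow he.ne'] at hϖ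
    exact hp0 (neg_eq_zero.mp hϖ.symm)
  · rw [P.mem_nonunits_iff]
    by_contra hcon
    rw [not_lt] at hcon
    have h1 : P.valuation (ϖ ^ e) < 1 := by
      rw [hϖ, Valuation.map_neg]
      exact P.mem_nonunits_iff.mp hP
    rw [map_pow] at h1
    exact absurd (one_le_pow₀ hcon) (not_le.mpr h1)

/-- Every root of `ϖ ^ e = −p` lies in the maximal ideal of `P`. -/
theorem root_neg_p_mem_nonunits (p : ℕ) [Fact p.Prime] (P : ValuationSubring Qb)
    (hP : P.LiesOverPrime p) (e : ℕ) (ϖ : Qb) (hϖ : ϖ ^ e = -(p : Qb)) :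
    ϖ ∈ P.nonunits := by
  rw [P.mem_nonunits_iff]
  by_contra hcon
  rw [not_lt] at hcon
  have h1 : P.valuation (ϖ ^ e) < 1 := by
    rw [hϖ, Valuation.map_neg]
    exact P.mem_nonunits_iff.mp hP
  rw [map_pow] at h1
  exact absurd (one_le_pow₀ hcon) (not_le.mpr h1)

/-- (F2) A Frobenius element at `P`: it lies in the decomposition group, acts as `x ↦ x ^ p`
modulo the maximal ideal, and raises roots of unity of order prime to `p` to the `p`-th power. -/
theorem exists_frobenius (p : ℕ) [Fact p.Prime] (P : ValuationSubring Qb)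
    (hP : P.LiesOverPrime p) :
    ∃ φ : GQ, P.IsFrobeniusAt φ p ∧ φ ∈ P.decompositionSubgroup ℚ ∧
      (∀ x ∈ P, φ x - x ^ p ∈ P.nonunits) ∧
      (∀ (ζ : Qb) (m : ℕ), ¬ p ∣ m → ζ ^ m = 1 → φ ζ = ζ ^ p) ∧
      ∀ (j : ℕ) (ζ : Qb) (m : ℕ), ¬ p ∣ m → ζ ^ m = 1 → (φ ^ j) ζ = ζ ^ (p ^ j) := by
  have hp : p.Prime := Fact.out
  obtain ⟨φ, hφ⟩ := Fermat.Agent.Lib.FrobeniusExists.exists_isFrobeniusAt_of_liesOverPrime hp P hP
  refine ⟨φ, hφ, hφ.mem_decompositionSubgroup, fun x hx => ?_, fun ζ m hpm hζ => ?_,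
    fun j ζ m hpm hζ => ?_⟩
  · exact Fermat.Agent.PT.G.frobenius_sub_pow_mem_nonunits P φ p hφ hx
  · exact Fermat.Agent.PT.G.frobenius_apply_root hp P hP hφ hpm hζ
  · exact Fermat.Agent.PT.G.frobenius_pow_apply_root hp P hP hφ hpm hζ j

/-- A `p`-th root of unity is `≡ 1` modulo the maximal ideal of `P`. -/
theorem zeta_sub_one_mem_nonunits (p : ℕ) [Fact p.Prime] (P : ValuationSubring Qb)
    (hP : P.LiesOverPrime p) (ζ : Qb) (hζ : ζ ^ p = 1) : ζ - 1 ∈ P.nonunits :=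
  Fermat.Agent.PT.G.sub_one_mem_nonunits_of_pow_eq_one p P hP hζ

/-- (F3) If `σ ζ = ζ ^ a` for a `p`-th root of unity `ζ ≠ 1`, then
`σ (ζ − 1) / (ζ − 1) ≡ a` modulo the maximal ideal of `P`. -/
theorem inertia_zeta_sub_one_div (p : ℕ) [Fact p.Prime] (P : ValuationSubring Qb)
    (hP : P.LiesOverPrime p) (ζ : Qb) (hζ : ζ ^ p = 1) (hζ1 : ζ ≠ 1) (σ : GQ) (a : ℕ)
    (hσ : σ ζ = ζ ^ a) : σ (ζ - 1) / (ζ - 1) - (a : Qb) ∈ P.nonunits := by
  have hp : p.Prime := Fact.out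
  have h1 : ζ - 1 ≠ 0 := sub_ne_zero.mpr hζ1
  have e1 : σ (ζ - 1) / (ζ - 1) = ∑ i ∈ Finset.range a, ζ ^ i := by
    rw [map_sub, map_one, hσ, eq_comm, eq_div_iff h1, geom_sum_mul]
  have e2 : (∑ i ∈ Finset.range a, ζ ^ i) - (a : Qb) = ∑ i ∈ Finset.range a, (ζ ^ i - 1) := by
    rw [Finset.sum_sub_distrib]
    simp
  rw [e1, e2]
  refine Finset.sum_induction _ (fun x => x ∈ P.nonunits) (fun x y hx hy => ?_) ?_ ?_
  · rw [P.mem_nonunits_iff] at hx hy ⊢
    exact lt_of_le_of_lt (P.valuation.map_add _ _) (max_lt hx hy)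
  · rw [P.mem_nonunits_iff, map_zero]
    exact zero_lt_one
  · intro i _
    exact zeta_sub_one_mem_nonunits p P hP (ζ ^ i)
      (by rw [← pow_mul, mul_comm, pow_mul, hζ, one_pow])

/-- `(ζ − 1) ^ (p − 1)` and `p` have the same valuation (`ζ` a primitive `p`-th root of unity). -/
theorem valuation_zeta_sub_one_pow (p : ℕ) [Fact p.Prime] (P : ValuationSubring Qb)
    (ζ : Qb) (hζ : ζ ^ p = 1) (hζ1 : ζ ≠ 1) :
    P.valuation (ζ - 1) ^ (p - 1) = P.valuation (p : Qb) := by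
  have hp : p.Prime := Fact.out
  have hprim : IsPrimitiveRoot ζ p := by
    have h := IsPrimitiveRoot.orderOf ζ
    rwa [orderOf_eq_prime hζ hζ1] at h
  obtain ⟨n, rfl⟩ : ∃ n, p = n + 1 := ⟨p - 1, (Nat.sub_add_cancel hp.pos).symm⟩
  have h1 := hprim.prod_one_sub_pow_eq_order
  have h2 := congrArg P.valuation h1
  rw [map_prod] at h2
  have h3 : ∀ k ∈ Finset.range n, P.valuation (1 - ζ ^ (k + 1)) = P.valuation (ζ - 1) := by
    intro k hk
    rw [Fermat.Agent.TW.KummerP.val_one_sub_pow_eq P.valuation hp hprim (j := k + 1)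
      (fun hdvd => by
        have := Nat.le_of_dvd (Nat.succ_pos k) hdvd
        have := Finset.mem_range.mp hk
        omega), Valuation.map_sub_swap]
  rw [Finset.prod_congr rfl h3, Finset.prod_const, Finset.card_range] at h2
  rw [Nat.add_sub_cancel, h2]
  push_cast
  rfl

/-- [ZETA] -/
theorem zetaUnit : Loc.ZetaUnit := by
  intro p _ P hP ζ hζ hζ1
  have hp : p.Prime := Fact.out
  have hp0 : (p : Qb) ≠ 0 := by exact_mod_cast hp.ne_zero
  rw [isPUnit_iff_valuation_eq_one, map_div₀, map_pow, valuation_zeta_sub_one_pow p P ζ hζ hζ1]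
  exact div_self ((Valuation.ne_zero_iff _).mpr hp0)

end Fermat.Agent.TW.Flat.Loc.Basic
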