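/-
TW-FLAT (task 337, FLAT-LOC-2): `[CLOSE]` — `p`-th roots of elements close to `1`.

`P` a valuation subring of `Qb` over `p`; `c ∈ P` with `c^(p−1) ∈ p·𝔪` (i.e. `v(c) > 1/(p−1)`),
`u ≡ 1 mod p·c`, `z^p = u`.  Then exactly one `p`-th root `ζ z` of `u` is `≡ 1 mod c`, and it is
fixed by every element of the decomposition group fixing `u` (`closeRoot : Loc.CloseRoot`).

Proof (no Hensel): with `ω` a primitive `p`-th root of unity and `π = 1 − ω`
(`v(π)^(p−1) = v(p)`), the numbers `s_i = 1 − ω^i z` have `∏ s_i = 1 − u ∈ p c P` and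
`v(s_i − s_j) = v(π)` for `i ≠ j`; so exactly one `s_i` has `v(s_i) < v(π)`, the others have
valuation `v(π)`, whence `v(s_i) ≤ v(c)`.
-/
import Mathlib
import Fermat.Agent.TW.Flat.Interfaces
import Fermat.Agent.PT.G.DecompBasic
import Fermat.Agent.TW.Local.InertiaCyclo

set_option autoImplicit false

namespace Fermat.Agent.TW.Flat.Loc.Close

open Fermat.Agent.S53 Fermat.Agent.TW.Flat

local notation "Qb" => AlgebraicClosure ℚ

/-- `v(1 − ω)^(p−1) = v(p)` for a primitive `p`-th root of unity `ω`. -/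
theorem val_one_sub_pow_pred {Γ₀ : Type*} [LinearOrderedCommGroupWithZero Γ₀] {K : Type*}
    [Field K] (v : Valuation K Γ₀) {p : ℕ} (hp : p.Prime) {ω : K} (hω : IsPrimitiveRoot ω p) :
    v (1 - ω) ^ (p - 1) = v (p : K) := by
  have hp' := hp
  obtain ⟨n, rfl⟩ : ∃ n, p = n + 1 := ⟨p - 1, by have := hp.pos; omega⟩
  have h := hω.prod_one_sub_pow_eq_order
  have h2 : v (∏ k ∈ Finset.range n, (1 - ω ^ (k + 1))) = v (1 - ω) ^ n := by
    rw [map_prod]
    rw [Finset.prod_congr rfl (fun k hk =>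
      Fermat.Agent.TW.KummerP.val_one_sub_pow_eq v hp' hω (j := k + 1) (by
        intro hdvd
        have h1 := Nat.le_of_dvd (Nat.succ_pos k) hdvd
        have h2 := Finset.mem_range.1 hk
        omega))]
    rw [Finset.prod_const, Finset.card_range]
  rw [Nat.add_sub_cancel, ← h2, h]
  push_cast
  rfl

/-- The abstract valuation statement behind `[CLOSE]`. -/
theorem exists_close_root {Γ₀ : Type*} [LinearOrderedCommGroupWithZero Γ₀] {K : Type*}
    [Field K] (v : Valuation K Γ₀) {p : ℕ} (hp : p.Prime) (hvp : v (p : K) < 1)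
    (hp0 : (p : K) ≠ 0) {ω : K} (hω : IsPrimitiveRoot ω p) (c u z : K) (hc : v c ≤ 1)
    (hcp : v c ^ (p - 1) < v (p : K)) (hu : v (u - 1) ≤ v (p : K) * v c) (hz : z ^ p = u) :
    ∃ i₀ ∈ Finset.range p, v (1 - ω ^ i₀ * z) ≤ v c ∧ v (1 - ω ^ i₀ * z) < v (1 - ω) ∧
      ∀ i ∈ Finset.range p, v (1 - ω ^ i * z) < v (1 - ω) → i = i₀ := by
  classical
  have hvp0 : v (p : K) ≠ 0 := (Valuation.ne_zero_iff v).2 hp0
  have hπ : v (1 - ω) ^ (p - 1) = v (p : K) := val_one_sub_pow_pred v hp hω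
  have hp1 : p - 1 ≠ 0 := by have := hp.two_le; omega
  have hπ0 : v (1 - ω) ≠ 0 := by
    intro h0
    rw [h0, zero_pow hp1] at hπ
    exact hvp0 hπ.symm
  -- `v(c) < v(π)`
  have hcπ : v c < v (1 - ω) := by
    by_contra hcon
    have h1 : v (1 - ω) ^ (p - 1) ≤ v c ^ (p - 1) := pow_le_pow_left₀ zero_le (not_lt.1 hcon) _
    rw [hπ] at h1
    exact absurd hcp (not_lt.2 h1)
  -- `ω` and `z` are units
  have hvω : v ω = 1 := by
    have h1 : v ω ^ p = 1 := by rw [← map_pow, hω.pow_eq_one, map_one]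
    exact (pow_eq_one_iff_of_nonneg zero_le hp.ne_zero).1 h1
  have hvu : v u = 1 := by
    have h1 : v (u - 1) < 1 := by
      refine lt_of_le_of_lt hu ?_
      calc v (p : K) * v c ≤ v (p : K) * 1 := mul_le_mul' le_rfl hc
        _ = v (p : K) := mul_one _
        _ < 1 := hvp
    have e : u = 1 + (u - 1) := by ring
    rw [e, Valuation.map_add_eq_of_lt_left v (by rw [map_one]; exact h1), map_one]
  have hvz : v z = 1 := by
    have h1 : v z ^ p = 1 := by rw [← map_pow, hz, hvu]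
    exact (pow_eq_one_iff_of_nonneg zero_le hp.ne_zero).1 h1
  -- the product of the `s i`
  have hprod : ∏ i ∈ Finset.range p, (1 - ω ^ i * z) = 1 - u := by
    have h := X_pow_sub_C_eq_prod hω hp.pos hz
    have h2 := congrArg (Polynomial.eval 1) h
    rw [Polynomial.eval_sub, Polynomial.eval_pow, Polynomial.eval_X, Polynomial.eval_C, one_pow,
      Polynomial.eval_prod] at h2
    rw [h2]
    refine Finset.prod_congr rfl fun i _ => ?_
    rw [Polynomial.eval_sub, Polynomial.eval_X, Polynomial.eval_C]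
  have hvprod : v (∏ i ∈ Finset.range p, (1 - ω ^ i * z)) ≤ v (p : K) * v c := by
    rw [hprod, ← Valuation.map_neg, neg_sub]
    exact hu
  -- differences
  have hdiff : ∀ i ∈ Finset.range p, ∀ j ∈ Finset.range p, i ≠ j →
      v ((1 - ω ^ i * z) - (1 - ω ^ j * z)) = v (1 - ω) := by
    have key : ∀ i j : ℕ, i < j → j < p →
        v ((1 - ω ^ i * z) - (1 - ω ^ j * z)) = v (1 - ω) := by
      intro i j hij hj
      have e : (1 - ω ^ i * z) - (1 - ω ^ j * z) = -(ω ^ i * z * (1 - ω ^ (j - i))) := by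
        have h1 : ω ^ j = ω ^ i * ω ^ (j - i) := by
          rw [← pow_add]
          congr 1
          omega
        rw [h1]
        ring
      rw [e, Valuation.map_neg, map_mul, map_mul, map_pow, hvω, one_pow, hvz, one_mul, one_mul]
      refine Fermat.Agent.TW.KummerP.val_one_sub_pow_eq v hp hω ?_
      intro hdvd
      have h1 := Nat.le_of_dvd (by omega) hdvd
      omega
    intro i hi j hj hij
    rcases lt_or_gt_of_ne hij with h | h
    · exact key i j h (Finset.mem_range.1 hj)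
    · rw [← Valuation.map_neg, neg_sub]
      exact key j i h (Finset.mem_range.1 hi)
  -- uniqueness
  have huniq : ∀ i ∈ Finset.range p, ∀ j ∈ Finset.range p, v (1 - ω ^ i * z) < v (1 - ω) →
      v (1 - ω ^ j * z) < v (1 - ω) → i = j := by
    intro i hi j hj h1 h2
    by_contra hij
    have h3 := hdiff i hi j hj hij
    have h4 : v ((1 - ω ^ i * z) - (1 - ω ^ j * z)) < v (1 - ω) :=
      lt_of_le_of_lt (Valuation.map_sub v _ _) (max_lt h1 h2)
    rw [h3] at h4
    exact lt_irrefl _ h4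
  -- existence
  have hex : ∃ i₀ ∈ Finset.range p, v (1 - ω ^ i₀ * z) < v (1 - ω) := by
    by_contra hcon
    push Not at hcon
    have h1 : ∏ _i ∈ Finset.range p, v (1 - ω) ≤ ∏ i ∈ Finset.range p, v (1 - ω ^ i * z) :=
      Finset.prod_le_prod (fun _ _ => zero_le) fun i hi => hcon i hi
    rw [Finset.prod_const, Finset.card_range, ← map_prod] at h1
    have h2 : v (1 - ω) ^ p = v (p : K) * v (1 - ω) := by
      conv_lhs => rw [show p = (p - 1) + 1 by omega, pow_succ, hπ]
    rw [h2] at h1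
    have h3 : v (p : K) * v (1 - ω) ≤ v (p : K) * v c := h1.trans hvprod
    have h4 : v (1 - ω) ≤ v c := by
      rwa [mul_le_mul_iff_right₀ (zero_lt_iff.2 hvp0)] at h3
    exact absurd hcπ (not_lt.2 h4)
  obtain ⟨i₀, hi₀, hlt⟩ := hex
  refine ⟨i₀, hi₀, ?_, hlt, fun i hi h => huniq i hi i₀ hi₀ h hlt⟩
  -- the other factors have valuation `v(π)`
  have hother : ∀ i ∈ (Finset.range p).erase i₀, v (1 - ω ^ i * z) = v (1 - ω) := by
    intro i hi
    obtain ⟨hne, hir⟩ := Finset.mem_erase.1 hi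
    have e : 1 - ω ^ i * z = ((1 - ω ^ i * z) - (1 - ω ^ i₀ * z)) + (1 - ω ^ i₀ * z) := by ring
    rw [e, Valuation.map_add_eq_of_lt_left v (by rw [hdiff i hir i₀ hi₀ hne]; exact hlt),
      hdiff i hir i₀ hi₀ hne]
  have h5 : v (∏ i ∈ Finset.range p, (1 - ω ^ i * z)) =
      v (1 - ω ^ i₀ * z) * v (p : K) := by
    rw [← Finset.mul_prod_erase _ _ hi₀, map_mul, map_prod, Finset.prod_congr rfl hother,
      Finset.prod_const, Finset.card_erase_of_mem hi₀, Finset.card_range, hπ]
  rw [h5, mul_comm] at hvprod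
  rwa [mul_le_mul_iff_right₀ (zero_lt_iff.2 hvp0)] at hvprod

/-- **[CLOSE]** -/
theorem closeRoot : Loc.CloseRoot := by
  intro p hpF P hP c u z hcP hcm hut hz
  have hp : p.Prime := hpF.out
  have hp0 : (p : Qb) ≠ 0 := Nat.cast_ne_zero.mpr hp.ne_zero
  have hvp : P.valuation (p : Qb) < 1 := P.mem_nonunits_iff.mp hP
  have hvp0 : P.valuation (p : Qb) ≠ 0 := (Valuation.ne_zero_iff _).2 hp0
  have : NeZero p := ⟨hp.ne_zero⟩
  obtain ⟨ω, hω⟩ := HasEnoughRootsOfUnity.exists_primitiveRoot Qb p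
  have hc : P.valuation c ≤ 1 := (P.valuation_le_one_iff c).2 hcP
  have hcp : P.valuation c ^ (p - 1) < P.valuation (p : Qb) := by
    obtain ⟨m, hm, hcm⟩ := hcm
    rw [← map_pow, hcm, map_mul]
    have hvm : P.valuation m < 1 := P.mem_nonunits_iff.mp hm
    calc P.valuation (p : Qb) * P.valuation m < P.valuation (p : Qb) * 1 :=
          (mul_lt_mul_iff_right₀ (zero_lt_iff.2 hvp0)).2 hvm
      _ = P.valuation (p : Qb) := mul_one _
  have hu : P.valuation (u - 1) ≤ P.valuation (p : Qb) * P.valuation c := by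
    obtain ⟨t, ht, hut⟩ := hut
    rw [hut, map_mul, map_mul]
    calc P.valuation (p : Qb) * P.valuation c * P.valuation t
        ≤ P.valuation (p : Qb) * P.valuation c * 1 :=
          mul_le_mul' le_rfl ((P.valuation_le_one_iff t).2 ht)
      _ = P.valuation (p : Qb) * P.valuation c := mul_one _
  obtain ⟨i₀, hi₀, hle, hlt, huniq⟩ :=
    exists_close_root P.valuation hp hvp hp0 hω c u z hc hcp hu hz
  have hζ : (ω ^ i₀) ^ p = 1 := by rw [← pow_mul, mul_comm, pow_mul, hω.pow_eq_one, one_pow]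
  refine ⟨ω ^ i₀, hζ, ?_, ?_⟩
  · -- divisibility by `c`
    have hle' : P.valuation (ω ^ i₀ * z - 1) ≤ P.valuation c := by
      rw [← Valuation.map_neg, neg_sub]
      exact hle
    rcases eq_or_ne c 0 with rfl | hc0
    · rw [map_zero] at hle'
      refine ⟨0, P.zero_mem, ?_⟩
      rw [mul_zero]
      exact (map_eq_zero _).1 (le_antisymm hle' zero_le)
    · refine ⟨(ω ^ i₀ * z - 1) / c, ?_, by field_simp⟩
      rw [← P.valuation_le_one_iff, map_div₀]
      exact (div_le_one₀ (zero_lt_iff.2 ((Valuation.ne_zero_iff _).2 hc0))).2 hle'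
  · -- invariance
    intro σ hσ hσu
    have hroot : (σ (ω ^ i₀ * z)) ^ p = u := by
      rw [← map_pow, mul_pow, hζ, one_mul, hz, hσu]
    have h := X_pow_sub_C_eq_prod hω hp.pos hz
    have h2 := congrArg (Polynomial.eval (σ (ω ^ i₀ * z))) h
    rw [Polynomial.eval_sub, Polynomial.eval_pow, Polynomial.eval_X, Polynomial.eval_C, hroot,
      sub_self, Polynomial.eval_prod] at h2
    obtain ⟨j, hj, hj0⟩ := Finset.prod_eq_zero_iff.1 h2.symm
    rw [Polynomial.eval_sub, Polynomial.eval_X, Polynomial.eval_C, sub_eq_zero] at hj0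
    have hval : P.valuation (1 - ω ^ j * z) < P.valuation (1 - ω) := by
      rw [← hj0, show (1 : Qb) - σ (ω ^ i₀ * z) = σ (1 - ω ^ i₀ * z) by
        rw [map_sub, map_one],
        Fermat.Agent.PT.G.valuation_apply_eq_of_mem_decomp hσ]
      exact hlt
    rw [hj0, huniq j hj hval]

end Fermat.Agent.TW.Flat.Loc.Close
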