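/-
TW-FLAT (task 338, FLAT-LOC-3): monogenicity `Loc.Mono`.

`ϖ^e = −p`, `G_F = {σ ∈ I | σ ϖ = ϖ}`, `H ≤ G_F` of index `n` containing `G_F ∩ Gal(Qb/L₀)` for a
finite-dimensional `L₀`.  Then the fixed field of `H` has a uniformiser `Π` with `Π^n = ϖ·unit`,
the integral `H`-fixed elements are the combinations of `1, Π, …, Π^(n−1)` with integral
`G_F`-fixed coefficients, and these powers are independent over the `G_F`-fixed elements.

The proof avoids all dimension theory: discreteness of the valuation on the `H`-fixed elements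
(norm to `F` + `Loc.FVal`), `Π`-adic expansions with inertia-fixed digits (`Loc.Teich`,
`Loc.RootFix`), "an element of `G_F` fixing `Π` lies in `H`" (expansions + `Loc.Arch` + Galois
theory at a finite level), a Krasner-type argument for `e' ≥ n`, and Lagrange interpolation at the
conjugates of `Π` for the spanning statement.
-/
import Mathlib
import Fermat.Agent.TW.Flat.Interfaces
import Fermat.Agent.Lib.TameProp

set_option autoImplicit false

namespace Fermat.Agent.TW.Flat.Loc.MonoPf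

open Fermat.Agent.S53 Fermat.Agent.TW Fermat.Agent.TW.Flat Polynomial
open scoped Pointwise

local notation "Qb" => AlgebraicClosure ℚ

attribute [local instance] Fermat.Agent.Lib.GalQbar.isAlgClosure_rat
  Fermat.Agent.Lib.GalQbar.isGalois_rat Fermat.Agent.Lib.GalQbar.isAlgebraic_rat
  Fermat.Agent.Lib.GalQbar.normal_rat

/-! ### Generalities -/

theorem isPUnit_iff_val {P : ValuationSubring Qb} {z : Qb} :
    IsPUnit P z ↔ P.valuation z = 1 := by
  constructor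
  · rintro ⟨h0, h1, h2⟩
    have a := (P.valuation_le_one_iff z).2 h1
    have b := (P.valuation_le_one_iff z⁻¹).2 h2
    rw [map_inv₀] at b
    have hz : P.valuation z ≠ 0 := (Valuation.ne_zero_iff _).2 h0
    have c : 1 ≤ P.valuation z := by
      rwa [inv_le_one₀ (zero_lt_iff.2 hz)] at b
    exact le_antisymm a c
  · intro h
    have h0 : z ≠ 0 := by
      rintro rfl
      rw [map_zero] at h
      exact zero_ne_one h
    refine ⟨h0, (P.valuation_le_one_iff z).1 h.le, (P.valuation_le_one_iff _).1 ?_⟩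
    rw [map_inv₀, h, inv_one]

/-- The subgroup `G_F = {σ ∈ I | σ ϖ = ϖ}`. -/
def GF (P : ValuationSubring Qb) (ϖ : Qb) : Subgroup GQ where
  carrier := {σ | σ ∈ P.inertiaSubgroupIn ℚ ∧ σ ϖ = ϖ}
  mul_mem' := by
    rintro σ τ ⟨hσ, hσ'⟩ ⟨hτ, hτ'⟩
    refine ⟨mul_mem hσ hτ, ?_⟩
    rw [AlgEquiv.mul_apply, hτ', hσ']
  one_mem' := ⟨one_mem _, rfl⟩
  inv_mem' := by
    rintro σ ⟨hσ, hσ'⟩
    refine ⟨inv_mem hσ, ?_⟩
    calc σ⁻¹ ϖ = σ⁻¹ (σ ϖ) := by rw [hσ']
      _ = ϖ := by rw [← AlgEquiv.mul_apply, inv_mul_cancel, AlgEquiv.one_apply]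

theorem mem_GF {P : ValuationSubring Qb} {ϖ : Qb} {σ : GQ} :
    σ ∈ GF P ϖ ↔ σ ∈ P.inertiaSubgroupIn ℚ ∧ σ ϖ = ϖ := Iff.rfl

/-- A subgroup `H ≤ G` containing `G ∩ Gal(Qb/L₀)` (`L₀` finite-dimensional) contains every
element of `G` fixing the fixed field of `H`. -/
theorem mem_of_fixes (H G : Subgroup GQ) (hHG : H ≤ G) (L₀ : IntermediateField ℚ Qb)
    [FiniteDimensional ℚ L₀] (hopen : ∀ σ ∈ G, (∀ x ∈ L₀, σ x = x) → σ ∈ H) (σ : GQ)
    (hσ : σ ∈ G) (hfix : ∀ x : Qb, (∀ h ∈ H, h x = x) → σ x = x) : σ ∈ H := by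
  let N : IntermediateField ℚ Qb := IntermediateField.normalClosure ℚ L₀ Qb
  have hLN : L₀ ≤ N := IntermediateField.le_normalClosure L₀
  let U : Subgroup GQ := N.fixingSubgroup
  have hUopen : IsOpen (U : Set GQ) := IntermediateField.fixingSubgroup_isOpen N
  have hKopen : IsOpen ((H ⊔ U : Subgroup GQ) : Set GQ) :=
    Subgroup.isOpen_mono (le_sup_right : U ≤ H ⊔ U) hUopen
  have hK : (IntermediateField.fixedField (H ⊔ U)).fixingSubgroup = H ⊔ U :=
    InfiniteGalois.fixingSubgroup_fixedField ⟨H ⊔ U, (H ⊔ U).isClosed_of_isOpen hKopen⟩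
  have hσK : σ ∈ H ⊔ U := by
    rw [← hK, IntermediateField.mem_fixingSubgroup_iff]
    intro x hx
    apply hfix
    intro h hh
    rw [IntermediateField.mem_fixedField_iff] at hx
    exact hx h (Subgroup.mem_sup_left hh)
  have hmul : ((H ⊔ U : Subgroup GQ) : Set GQ) = (H : Set GQ) * (U : Set GQ) :=
    Subgroup.mul_normal H U
  have hσ' : σ ∈ (H : Set GQ) * (U : Set GQ) := by
    rw [← hmul]
    exact hσK
  obtain ⟨h, hh, u, hu, rfl⟩ := Set.mem_mul.1 hσ'
  have huG : u ∈ G := by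
    have : u = h⁻¹ * (h * u) := by group
    rw [this]
    exact G.mul_mem (G.inv_mem (hHG hh)) hσ
  have huH : u ∈ H := by
    apply hopen u huG
    intro x hx
    exact (IntermediateField.mem_fixingSubgroup_iff N u).1 hu x (hLN hx)
  exact H.mul_mem hh huH


/-! ### The context -/

/-- The data and hypotheses of `Loc.Mono`, with the toolkit statements in valuation form. -/
structure Ctx (P : ValuationSubring Qb) (ϖ : Qb) (H : Subgroup GQ) (n : ℕ) (τ : Fin n → GQ) :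
    Prop where
  vlt : P.valuation ϖ < 1
  vne : P.valuation ϖ ≠ 0
  hH : H ≤ GF P ϖ
  hopen : ∃ L : IntermediateField ℚ Qb, FiniteDimensional ℚ L ∧
    ∀ σ ∈ GF P ϖ, (∀ x ∈ L, σ x = x) → σ ∈ H
  hn : 0 < n
  hτ : ∀ i, τ i ∈ GF P ϖ
  hcos : ∀ σ ∈ GF P ϖ, ∃! i, (τ i)⁻¹ * σ ∈ H
  fval : ∀ x : Qb, x ≠ 0 → (∀ σ ∈ GF P ϖ, σ x = x) →
    ∃ m : ℤ, P.valuation x = P.valuation ϖ ^ m
  teich : ∀ x : Qb, P.valuation x = 1 →
    ∃ ζ : Qb, ζ ∈ P ∧ (∀ σ ∈ P.inertiaSubgroupIn ℚ, σ ζ = ζ) ∧ P.valuation (x - ζ) < 1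
  arch : ∀ d : Qb, d ≠ 0 → ∃ N : ℕ, P.valuation ϖ ^ N ≤ P.valuation d

namespace Ctx

variable {P : ValuationSubring Qb} {ϖ : Qb} {H : Subgroup GQ} {n : ℕ} {τ : Fin n → GQ}

theorem val_apply {σ : GQ} (hσ : σ ∈ GF P ϖ) (x : Qb) :
    P.valuation (σ x) = P.valuation x :=
  Fermat.Agent.Lib.TameProp.val_apply hσ.1 x

variable (c : Ctx P ϖ H n τ)
include c

theorem exists_tau_mem : ∃ i0, τ i0 ∈ H := by
  obtain ⟨i, hi, -⟩ := c.hcos 1 (one_mem _)
  refine ⟨i, ?_⟩
  rw [mul_one] at hi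
  simpa using H.inv_mem hi

omit c in
theorem apply_eq {σ : GQ} {i : Fin n} (hi : (τ i)⁻¹ * σ ∈ H) {x : Qb}
    (hx : ∀ h ∈ H, h x = x) : σ x = τ i x := by
  have e : σ = τ i * ((τ i)⁻¹ * σ) := by group
  conv_lhs => rw [e]
  rw [AlgEquiv.mul_apply, hx _ hi]

theorem idx_unique {σ : GQ} (hσ : σ ∈ GF P ϖ) {i j : Fin n} (hi : (τ i)⁻¹ * σ ∈ H)
    (hj : (τ j)⁻¹ * σ ∈ H) : i = j :=
  (c.hcos σ hσ).unique hi hj

theorem exists_perm {σ : GQ} (hσ : σ ∈ GF P ϖ) :
    ∃ π : Equiv.Perm (Fin n), ∀ i x, (∀ h ∈ H, h x = x) → σ (τ i x) = τ (π i) x := by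
  have h1 : ∀ i, ∃ j, (τ j)⁻¹ * (σ * τ i) ∈ H := fun i =>
    (c.hcos (σ * τ i) (mul_mem hσ (c.hτ i))).exists
  choose f hf using h1
  have hinj : Function.Injective f := by
    intro i i' hii
    have a := hf i
    have b := hf i'
    rw [hii] at a
    have e : (τ i)⁻¹ * τ i' =
        ((τ (f i'))⁻¹ * (σ * τ i))⁻¹ * ((τ (f i'))⁻¹ * (σ * τ i')) := by group
    have h2 : (τ i)⁻¹ * τ i' ∈ H := by
      rw [e]
      exact H.mul_mem (H.inv_mem a) b
    have h3 : (τ i')⁻¹ * τ i' ∈ H := by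
      rw [inv_mul_cancel]
      exact H.one_mem
    exact c.idx_unique (c.hτ i') h2 h3
  refine ⟨Equiv.ofBijective f (Finite.injective_iff_bijective.1 hinj), fun i x hx => ?_⟩
  rw [Equiv.ofBijective_apply, ← AlgEquiv.mul_apply]
  exact apply_eq (hf i) hx

theorem fix_prod {x : Qb} (hx : ∀ h ∈ H, h x = x) :
    ∀ σ ∈ GF P ϖ, σ (∏ i, τ i x) = ∏ i, τ i x := by
  intro σ hσ
  obtain ⟨π, hπ⟩ := c.exists_perm hσ
  rw [map_prod, ← Equiv.prod_comp π (fun i => τ i x)]
  exact Finset.prod_congr rfl fun i _ => hπ i x hx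

theorem val_pow {x : Qb} (hx0 : x ≠ 0) (hx : ∀ h ∈ H, h x = x) :
    ∃ m : ℤ, P.valuation x ^ n = P.valuation ϖ ^ m := by
  have h0 : ∏ i, τ i x ≠ 0 := Finset.prod_ne_zero_iff.2 fun i _ => by
    rw [Ne, map_eq_zero_iff _ (τ i).injective]
    exact hx0
  obtain ⟨m, hm⟩ := c.fval _ h0 (c.fix_prod hx)
  refine ⟨m, ?_⟩
  rw [← hm, map_prod]
  have : ∀ i ∈ Finset.univ, P.valuation (τ i x) = P.valuation x := fun i _ =>
    val_apply (c.hτ i) x
  rw [Finset.prod_congr rfl this, Finset.prod_const, Finset.card_univ, Fintype.card_fin]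

theorem fixH_pi : ∀ h ∈ H, h ϖ = ϖ := fun _ hh => (c.hH hh).2

/-- Existence of a uniformiser of the fixed field of `H`. -/
theorem exists_unif : ∃ (Pi : Qb) (e' : ℕ), 0 < e' ∧ e' ∣ n ∧ (∀ h ∈ H, h Pi = Pi) ∧
    P.valuation Pi ≠ 0 ∧ P.valuation Pi < 1 ∧ P.valuation Pi ^ e' = P.valuation ϖ ∧
    ∀ x : Qb, x ≠ 0 → (∀ h ∈ H, h x = x) → ∃ t : ℤ, P.valuation x = P.valuation Pi ^ t := by
  classical
  have hϖ0 : (0 : P.ValueGroup) < P.valuation ϖ := zero_lt_iff.2 c.vne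
  let S : AddSubgroup ℤ :=
    { carrier := {j | ∃ x : Qb, x ≠ 0 ∧ (∀ h ∈ H, h x = x) ∧
        P.valuation x ^ n = P.valuation ϖ ^ j}
      zero_mem' := ⟨1, one_ne_zero, fun h _ => map_one h, by simp⟩
      add_mem' := by
        rintro a b ⟨x, hx0, hx, hxa⟩ ⟨y, hy0, hy, hyb⟩
        refine ⟨x * y, mul_ne_zero hx0 hy0, fun h hh => by rw [map_mul, hx h hh, hy h hh], ?_⟩
        rw [map_mul, mul_pow, hxa, hyb, zpow_add₀ c.vne]
      neg_mem' := by
        rintro a ⟨x, hx0, hx, hxa⟩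
        refine ⟨x⁻¹, inv_ne_zero hx0, fun h hh => by rw [map_inv₀, hx h hh], ?_⟩
        rw [map_inv₀, inv_pow, hxa, zpow_neg] }
  have hmemS : ∀ j : ℤ, j ∈ S ↔ ∃ x : Qb, x ≠ 0 ∧ (∀ h ∈ H, h x = x) ∧
      P.valuation x ^ n = P.valuation ϖ ^ j := fun _ => Iff.rfl
  have hnS : (n : ℤ) ∈ S :=
    (hmemS _).2 ⟨ϖ, (Valuation.ne_zero_iff _).1 c.vne, c.fixH_pi, by rw [zpow_natCast]⟩
  have hex : ∃ k : ℕ, 0 < k ∧ (k : ℤ) ∈ S := ⟨n, c.hn, hnS⟩
  have hd : 0 < Nat.find hex ∧ ((Nat.find hex : ℕ) : ℤ) ∈ S := Nat.find_spec hex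
  have hdmin : ∀ k : ℕ, k < Nat.find hex → ¬ (0 < k ∧ (k : ℤ) ∈ S) :=
    fun k hk => Nat.find_min hex hk
  generalize Nat.find hex = d at hd hdmin
  have hd0 : (0 : ℤ) < d := by exact_mod_cast hd.1
  have hdvd : ∀ j ∈ S, (d : ℤ) ∣ j := by
    intro j hj
    have hr : j % d ∈ S := by
      have e : j % d = j - (j / d) • (d : ℤ) := by
        rw [smul_eq_mul]
        have := Int.emod_add_mul_ediv j d
        linarith
      rw [e]
      exact S.sub_mem hj (S.zsmul_mem hd.2 _)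
    have h1 : 0 ≤ j % d := Int.emod_nonneg _ hd0.ne'
    have h2 : j % d < d := Int.emod_lt_of_pos _ hd0
    by_contra hnd
    have h3 : j % d ≠ 0 := fun h => hnd (Int.dvd_of_emod_eq_zero h)
    apply hdmin (j % d).toNat
    · omega
    · refine ⟨by omega, ?_⟩
      rw [Int.toNat_of_nonneg h1]
      exact hr
  obtain ⟨Pi, hPi0, hPiH, hPid⟩ := (hmemS _).1 hd.2
  rw [zpow_natCast] at hPid
  obtain ⟨e', he'⟩ : d ∣ n := by exact_mod_cast hdvd n hnS
  have he'0 : 0 < e' := by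
    rcases Nat.eq_zero_or_pos e' with h | h
    · rw [h, mul_zero] at he'
      exact absurd he' c.hn.ne'
    · exact h
  have hvPi0 : P.valuation Pi ≠ 0 := (Valuation.ne_zero_iff _).2 hPi0
  have hvPi1 : P.valuation Pi < 1 := by
    by_contra hge
    rw [not_lt] at hge
    have h1 : 1 ≤ P.valuation Pi ^ n := one_le_pow₀ hge
    rw [hPid] at h1
    exact absurd (pow_lt_one₀ zero_le c.vlt hd.1.ne') (not_lt.2 h1)
  have hpow : P.valuation Pi ^ e' = P.valuation ϖ := by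
    apply (pow_left_inj₀ zero_le zero_le c.hn.ne').1
    rw [← pow_mul, mul_comm, pow_mul, hPid, ← pow_mul, ← he']
  refine ⟨Pi, e', he'0, ⟨d, by rw [he', mul_comm]⟩, hPiH, hvPi0, hvPi1, hpow, ?_⟩
  intro x hx0 hx
  obtain ⟨m, hm⟩ := c.val_pow hx0 hx
  obtain ⟨t, rfl⟩ := hdvd m ((hmemS _).2 ⟨x, hx0, hx, hm⟩)
  refine ⟨t, ?_⟩
  apply (pow_left_inj₀ zero_le zero_le c.hn.ne').1
  rw [hm, zpow_mul, zpow_natCast, ← hPid, ← zpow_natCast (P.valuation Pi ^ t) n,
    ← zpow_natCast (P.valuation Pi) n, ← zpow_mul, ← zpow_mul, mul_comm]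

end Ctx


/-- A uniformiser `Pi` of the fixed field of `H`, of ramification index `e'` over `F`. -/
structure Unif (P : ValuationSubring Qb) (ϖ : Qb) (H : Subgroup GQ) (Pi : Qb) (e' : ℕ) :
    Prop where
  pos : 0 < e'
  fixH : ∀ h ∈ H, h Pi = Pi
  ne : P.valuation Pi ≠ 0
  lt : P.valuation Pi < 1
  pow : P.valuation Pi ^ e' = P.valuation ϖ
  val : ∀ x : Qb, x ≠ 0 → (∀ h ∈ H, h x = x) → ∃ t : ℤ, P.valuation x = P.valuation Pi ^ t

namespace Ctx

variable {P : ValuationSubring Qb} {ϖ : Qb} {H : Subgroup GQ} {n : ℕ} {τ : Fin n → GQ}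
  {Pi : Qb} {e' : ℕ}

variable (c : Ctx P ϖ H n τ) (u : Unif P ϖ H Pi e')
include c u

omit c in
theorem pi_ne : Pi ≠ 0 := (Valuation.ne_zero_iff _).1 u.ne

omit u in
theorem varpi_ne : ϖ ≠ 0 := (Valuation.ne_zero_iff _).1 c.vne

omit c in
/-- An `H`-fixed element of the maximal ideal is divisible by `Pi`. -/
theorem div_pi {x : Qb} (hx : ∀ h ∈ H, h x = x) (hv : P.valuation x < 1) :
    ∃ x' : Qb, x' ∈ P ∧ (∀ h ∈ H, h x' = x') ∧ x = Pi * x' := by
  have hPi0 : Pi ≠ 0 := pi_ne u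
  refine ⟨x / Pi, ?_, fun h hh => by rw [map_div₀, hx h hh, u.fixH h hh], by field_simp⟩
  rw [← P.valuation_le_one_iff]
  rcases eq_or_ne x 0 with rfl | hx0
  · rw [zero_div, map_zero]
    exact zero_le_one
  · obtain ⟨t, ht⟩ := u.val x hx0 hx
    have hpos : (0 : P.ValueGroup) < P.valuation Pi := zero_lt_iff.2 u.ne
    rw [ht, zpow_lt_one_iff_right_of_lt_one₀ hpos u.lt] at hv
    rw [map_div₀, ht, div_le_one₀ hpos]
    calc P.valuation Pi ^ t ≤ P.valuation Pi ^ (1 : ℤ) :=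
          zpow_le_zpow_right_of_le_one₀ hpos u.lt.le hv
      _ = P.valuation Pi := zpow_one _

/-- One step of the `Pi`-adic expansion with an inertia-fixed digit. -/
theorem step {x : Qb} (hxP : x ∈ P) (hx : ∀ h ∈ H, h x = x) :
    ∃ a x' : Qb, a ∈ P ∧ (∀ σ ∈ P.inertiaSubgroupIn ℚ, σ a = a) ∧ x' ∈ P ∧
      (∀ h ∈ H, h x' = x') ∧ x = a + Pi * x' := by
  have hle := (P.valuation_le_one_iff x).2 hxP
  rcases lt_or_eq_of_le hle with hlt | heq
  · obtain ⟨x', hx'P, hx', rfl⟩ := div_pi u hx hlt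
    exact ⟨0, x', P.zero_mem, fun σ _ => map_zero σ, hx'P, hx', by rw [zero_add]⟩
  · obtain ⟨ζ, hζP, hζ, hlt⟩ := c.teich x heq
    have hfix : ∀ h ∈ H, h (x - ζ) = x - ζ := fun h hh => by
      rw [map_sub, hx h hh, hζ h (c.hH hh).1]
    obtain ⟨x', hx'P, hx', hxx'⟩ := div_pi u hfix hlt
    exact ⟨ζ, x', hζP, hζ, hx'P, hx', by rw [← hxx']; ring⟩

/-- `k` steps of the `Pi`-adic expansion. -/
theorem expand (k : ℕ) {x : Qb} (hxP : x ∈ P) (hx : ∀ h ∈ H, h x = x) :
    ∃ (a : ℕ → Qb) (x' : Qb), (∀ i, a i ∈ P ∧ ∀ σ ∈ P.inertiaSubgroupIn ℚ, σ (a i) = a i) ∧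
      x' ∈ P ∧ (∀ h ∈ H, h x' = x') ∧
      x = ∑ i ∈ Finset.range k, a i * Pi ^ i + Pi ^ k * x' := by
  induction k with
  | zero =>
    exact ⟨fun _ => 0, x, fun _ => ⟨P.zero_mem, fun σ _ => map_zero σ⟩, hxP, hx, by simp⟩
  | succ k ih =>
    obtain ⟨a, x', ha, hx'P, hx', hxe⟩ := ih
    obtain ⟨b, x'', hbP, hb, hx''P, hx'', hxe'⟩ := step c u hx'P hx'
    refine ⟨Function.update a k b, x'', fun i => ?_, hx''P, hx'', ?_⟩
    · rcases eq_or_ne i k with rfl | hik
      · rw [Function.update_self]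
        exact ⟨hbP, hb⟩
      · rw [Function.update_of_ne hik]
        exact ha i
    · rw [Finset.sum_range_succ, Function.update_self]
      have : ∑ i ∈ Finset.range k, Function.update a k b i * Pi ^ i
          = ∑ i ∈ Finset.range k, a i * Pi ^ i := by
        refine Finset.sum_congr rfl fun i hi => ?_
        rw [Function.update_of_ne (Finset.mem_range.1 hi).ne]
      rw [this, hxe, hxe']
      ring

/-- The block form: modulo `ϖ`, an integral `H`-fixed element is a combination of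
`1, Pi, …, Pi^(e'−1)` with inertia-fixed integral coefficients. -/
theorem block {x : Qb} (hxP : x ∈ P) (hx : ∀ h ∈ H, h x = x) :
    ∃ (a : ℕ → Qb) (x' : Qb), (∀ i, a i ∈ P ∧ ∀ σ ∈ P.inertiaSubgroupIn ℚ, σ (a i) = a i) ∧
      x' ∈ P ∧ (∀ h ∈ H, h x' = x') ∧
      x = ∑ i ∈ Finset.range e', a i * Pi ^ i + ϖ * x' := by
  obtain ⟨a, x', ha, hx'P, hx', hxe⟩ := expand c u e' hxP hx
  have hϖ0 : ϖ ≠ 0 := varpi_ne c
  refine ⟨a, Pi ^ e' / ϖ * x', ha, ?_, fun h hh => ?_, ?_⟩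
  · rw [← P.valuation_le_one_iff, map_mul, map_div₀, map_pow, u.pow, div_self c.vne, one_mul]
    exact (P.valuation_le_one_iff x').2 hx'P
  · rw [map_mul, map_div₀, map_pow, u.fixH h hh, c.fixH_pi h hh, hx' h hh]
  · rw [hxe]
    field_simp

end Ctx


namespace Ctx

variable {P : ValuationSubring Qb} {ϖ : Qb} {H : Subgroup GQ} {n : ℕ} {τ : Fin n → GQ}
  {Pi : Qb} {e' : ℕ}

variable (c : Ctx P ϖ H n τ) (u : Unif P ϖ H Pi e')
include c u

/-- For `σ ∈ G_F` fixing `Pi`, `σ x − x` is divisible by every power of `ϖ`. -/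
theorem val_sub_le {σ : GQ} (hσ : σ ∈ GF P ϖ) (hσPi : σ Pi = Pi) (k : ℕ) :
    ∀ x : Qb, x ∈ P → (∀ h ∈ H, h x = x) →
      P.valuation (σ x - x) ≤ P.valuation ϖ ^ k := by
  induction k with
  | zero =>
    intro x hxP hx
    rw [pow_zero]
    refine (P.valuation.map_sub _ _).trans (max_le ?_ ?_)
    · rw [val_apply hσ]
      exact (P.valuation_le_one_iff x).2 hxP
    · exact (P.valuation_le_one_iff x).2 hxP
  | succ k ih =>
    intro x hxP hx
    obtain ⟨a, x', ha, hx'P, hx', hxe⟩ := block c u hxP hx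
    have hfa : ∀ i, σ (a i) = a i := fun i => (ha i).2 σ hσ.1
    have e : σ x - x = ϖ * (σ x' - x') := by
      have e1 : σ x = ∑ i ∈ Finset.range e', a i * Pi ^ i + ϖ * σ x' := by
        conv_lhs => rw [hxe]
        simp only [map_add, map_sum, map_mul, map_pow, hσPi, hσ.2, hfa]
      rw [e1]
      conv_lhs => rw [hxe]
      ring
    rw [e, map_mul, pow_succ, mul_comm]
    exact mul_le_mul' (ih x' hx'P hx') le_rfl

/-- An element of `G_F` fixing `Pi` fixes every `H`-fixed element. -/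
theorem fix_of_fix_pi {σ : GQ} (hσ : σ ∈ GF P ϖ) (hσPi : σ Pi = Pi) {x : Qb}
    (hx : ∀ h ∈ H, h x = x) : σ x = x := by
  have key : ∀ y : Qb, y ∈ P → (∀ h ∈ H, h y = y) → σ y = y := by
    intro y hyP hy
    by_contra hne
    have hd : σ y - y ≠ 0 := sub_ne_zero.2 hne
    obtain ⟨N, hN⟩ := c.arch _ hd
    have h1 := val_sub_le c u hσ hσPi (N + 1) y hyP hy
    have h2 : P.valuation ϖ ^ (N + 1) < P.valuation ϖ ^ N := by
      rw [pow_succ]
      exact mul_lt_of_lt_one_right (pow_pos (zero_lt_iff.2 c.vne) N) c.vlt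
    exact absurd (h1.trans_lt h2) (not_lt.2 hN)
  rcases eq_or_ne x 0 with rfl | hx0
  · exact map_zero σ
  obtain ⟨N, hN⟩ := c.arch x⁻¹ (inv_ne_zero hx0)
  have hyP : ϖ ^ N * x ∈ P := by
    rw [← P.valuation_le_one_iff, map_mul, map_pow]
    rw [map_inv₀] at hN
    have hvx : (0 : P.ValueGroup) < P.valuation x :=
      zero_lt_iff.2 ((Valuation.ne_zero_iff _).2 hx0)
    exact (le_mul_inv_iff₀ hvx).1 (by rwa [one_mul])
  have hy : ∀ h ∈ H, h (ϖ ^ N * x) = ϖ ^ N * x := fun h hh => by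
    rw [map_mul, map_pow, c.fixH_pi h hh, hx h hh]
  have h3 := key _ hyP hy
  rw [map_mul, map_pow, hσ.2] at h3
  exact mul_left_cancel₀ (pow_ne_zero N (varpi_ne c)) h3

/-- The stabiliser of `Pi` in `G_F` is `H`. -/
theorem stab {σ : GQ} (hσ : σ ∈ GF P ϖ) (hσPi : σ Pi = Pi) : σ ∈ H := by
  obtain ⟨L₀, hfin, hL₀⟩ := c.hopen
  exact mem_of_fixes H (GF P ϖ) c.hH L₀ hL₀ σ hσ (fun x hx => fix_of_fix_pi c u hσ hσPi hx)

/-- The `n` conjugates `τ i Pi` are pairwise distinct. -/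
theorem tau_inj : Function.Injective (fun i => τ i Pi) := by
  intro i j hij
  have hij' : τ i Pi = τ j Pi := hij
  have hmem : (τ j)⁻¹ * τ i ∈ GF P ϖ := mul_mem (inv_mem (c.hτ j)) (c.hτ i)
  have hfix : ((τ j)⁻¹ * τ i) Pi = Pi := by
    rw [AlgEquiv.mul_apply, hij', ← AlgEquiv.mul_apply, inv_mul_cancel, AlgEquiv.one_apply]
  have h1 : (τ j)⁻¹ * τ i ∈ H := stab c u hmem hfix
  have h2 : (τ i)⁻¹ * τ i ∈ H := by
    rw [inv_mul_cancel]
    exact H.one_mem
  exact c.idx_unique (c.hτ i) h2 h1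

/-- `1, Pi, …, Pi^(n−1)` are linearly independent over the `G_F`-fixed elements. -/
theorem indep (a : Fin n → Qb) (ha : ∀ i, ∀ σ ∈ GF P ϖ, σ (a i) = a i)
    (h : ∑ i, a i * Pi ^ (i : ℕ) = 0) : ∀ i, a i = 0 := by
  have hdeg : (∑ i : Fin n, C (a i) * X ^ (i : ℕ)).degree
      < ((Finset.univ : Finset (Fin n)).card : WithBot ℕ) := by
    rw [Finset.card_univ, Fintype.card_fin]
    exact degree_sum_fin_lt a
  have heval : ∀ j ∈ (Finset.univ : Finset (Fin n)),
      (∑ i : Fin n, C (a i) * X ^ (i : ℕ)).eval (τ j Pi) = 0 := by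
    intro j _
    have e : (∑ i : Fin n, C (a i) * X ^ (i : ℕ)).eval (τ j Pi)
        = τ j (∑ i, a i * Pi ^ (i : ℕ)) := by
      simp only [eval_finsetSum, eval_mul, eval_C, eval_pow, eval_X, map_sum, map_mul, map_pow]
      exact Finset.sum_congr rfl fun i _ => by rw [ha i _ (c.hτ j)]
    rw [e, h, map_zero]
  have hg : (∑ i : Fin n, C (a i) * X ^ (i : ℕ)) = 0 :=
    Polynomial.eq_zero_of_degree_lt_of_eval_index_eq_zero (s := Finset.univ)
      (v := fun i => τ i Pi) ((tau_inj c u).injOn) hdeg heval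
  intro i
  have hc : (∑ j : Fin n, C (a j) * X ^ (j : ℕ)).coeff (i : ℕ) = a i := by
    rw [finsetSum_coeff]
    simp only [coeff_C_mul_X_pow, Fin.val_inj]
    rw [Finset.sum_ite_eq Finset.univ i a]
    simp
  rw [← hc, hg, coeff_zero]

end Ctx


namespace Ctx

variable {P : ValuationSubring Qb} {ϖ : Qb} {H : Subgroup GQ} {n : ℕ} {τ : Fin n → GQ}
  {Pi : Qb} {e' : ℕ}

variable (c : Ctx P ϖ H n τ) (u : Unif P ϖ H Pi e')
include c u

/-- Approximation modulo `ϖ^k` by combinations of `1, …, Pi^(e'−1)` with `G_F`-fixed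
coefficients. -/
theorem approx (k : ℕ) : ∀ x : Qb, x ∈ P → (∀ h ∈ H, h x = x) →
    ∃ (b : ℕ → Qb) (z : Qb), (∀ i, ∀ σ ∈ GF P ϖ, σ (b i) = b i) ∧ z ∈ P ∧
      (∀ h ∈ H, h z = z) ∧ x = ∑ i ∈ Finset.range e', b i * Pi ^ i + ϖ ^ k * z := by
  induction k with
  | zero =>
    intro x hxP hx
    exact ⟨fun _ => 0, x, fun _ σ _ => map_zero σ, hxP, hx, by simp⟩
  | succ k ih =>
    intro x hxP hx
    obtain ⟨b, z, hb, hzP, hz, hxe⟩ := ih x hxP hx
    obtain ⟨a, z', ha, hz'P, hz', hze⟩ := block c u hzP hz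
    refine ⟨fun i => b i + ϖ ^ k * a i, z', fun i σ hσ => ?_, hz'P, hz', ?_⟩
    · rw [map_add, map_mul, map_pow, hb i σ hσ, hσ.2, (ha i).2 σ hσ.1]
    · have e1 : ∑ i ∈ Finset.range e', (b i + ϖ ^ k * a i) * Pi ^ i
          = ∑ i ∈ Finset.range e', b i * Pi ^ i
            + ϖ ^ k * ∑ i ∈ Finset.range e', a i * Pi ^ i := by
        rw [Finset.mul_sum, ← Finset.sum_add_distrib]
        exact Finset.sum_congr rfl fun i _ => by ring
      rw [e1]
      conv_lhs => rw [hxe, hze]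
      ring

/-- **Krasner-type step**: the ramification index `e'` is at least `n`. -/
theorem le_e' : n ≤ e' := by
  classical
  by_contra hlt
  rw [not_le] at hlt
  have hV0 : (0 : P.ValueGroup) < P.valuation ϖ := zero_lt_iff.2 c.vne
  -- a lower bound for the distances between the conjugates of `Pi`
  have hN : ∃ N : ℕ, ∀ i j, i ≠ j → P.valuation ϖ ^ N ≤ P.valuation (τ i Pi - τ j Pi) := by
    have h1 : ∀ ij : Fin n × Fin n, ∃ N : ℕ, ij.1 ≠ ij.2 →
        P.valuation ϖ ^ N ≤ P.valuation (τ ij.1 Pi - τ ij.2 Pi) := by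
      intro ij
      by_cases hij : ij.1 = ij.2
      · exact ⟨0, fun h => absurd hij h⟩
      · obtain ⟨N, hN⟩ := c.arch (τ ij.1 Pi - τ ij.2 Pi)
          (sub_ne_zero.2 fun h => hij (tau_inj c u h))
        exact ⟨N, fun _ => hN⟩
    choose Nf hNf using h1
    refine ⟨Finset.univ.sup Nf, fun i j hij => le_trans ?_ (hNf (i, j) hij)⟩
    exact pow_le_pow_of_le_one zero_le c.vlt.le (Finset.le_sup (f := Nf) (Finset.mem_univ (i, j)))
  obtain ⟨N, hN⟩ := hN
  have hPiP : Pi ^ e' ∈ P := by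
    rw [← P.valuation_le_one_iff, map_pow, u.pow]
    exact c.vlt.le
  have hPiH : ∀ h ∈ H, h (Pi ^ e') = Pi ^ e' := fun h hh => by rw [map_pow, u.fixH h hh]
  obtain ⟨b, z, hb, hzP, hz, hze⟩ := approx c u (N * e' + 1) (Pi ^ e') hPiP hPiH
  have hqdeg : (∑ i ∈ Finset.range e', C (b i) * X ^ i : Qb[X]).degree < (e' : WithBot ℕ) := by
    rw [← mem_degreeLT]
    refine Submodule.sum_mem _ fun i hi => ?_
    rw [mem_degreeLT]
    exact lt_of_le_of_lt (degree_C_mul_X_pow_le i (b i))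
      (by exact_mod_cast Finset.mem_range.1 hi)
  have hmonic : (X ^ e' - ∑ i ∈ Finset.range e', C (b i) * X ^ i : Qb[X]).Monic :=
    monic_X_pow_sub hqdeg
  have hgeval : ∀ y : Qb, (X ^ e' - ∑ i ∈ Finset.range e', C (b i) * X ^ i : Qb[X]).eval y
      = y ^ e' - ∑ i ∈ Finset.range e', b i * y ^ i := by
    intro y
    simp only [eval_sub, eval_pow, eval_X, eval_finsetSum, eval_mul, eval_C]
  generalize hgdef : (X ^ e' - ∑ i ∈ Finset.range e', C (b i) * X ^ i : Qb[X]) = g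
    at hmonic hgeval
  have hnat : g.natDegree ≤ e' := by
    rw [← hgdef]
    refine (natDegree_sub_le _ _).trans (max_le (natDegree_X_pow_le e') ?_)
    exact natDegree_le_of_degree_le hqdeg.le
  have hgPi : g.eval Pi = ϖ ^ (N * e' + 1) * z := by
    rw [hgeval]
    linear_combination hze
  have hprod : g.eval Pi = (g.roots.map (fun β => Pi - β)).prod :=
    (IsAlgClosed.splits g).eval_eq_prod_roots_of_monic hmonic Pi
  -- a root of `g` close to `Pi`
  have hclose : ∃ β ∈ g.roots, P.valuation (Pi - β) < P.valuation ϖ ^ N := by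
    by_contra hno
    simp only [not_exists, not_and, not_lt] at hno
    have h1 : (P.valuation ϖ ^ N) ^ Multiset.card (g.roots.map (fun β => P.valuation (Pi - β)))
        ≤ (g.roots.map (fun β => P.valuation (Pi - β))).prod :=
      Multiset.pow_card_le_prod (fun x hx => by
        obtain ⟨β, hβ, rfl⟩ := Multiset.mem_map.1 hx
        exact hno β hβ)
    have h2 : (g.roots.map (fun β => P.valuation (Pi - β))).prod = P.valuation (g.eval Pi) := by
      rw [hprod, map_multiset_prod, Multiset.map_map]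
      rfl
    rw [h2, hgPi, Multiset.card_map] at h1
    have h3 : (P.valuation ϖ ^ N) ^ e' ≤ (P.valuation ϖ ^ N) ^ Multiset.card g.roots :=
      pow_le_pow_of_le_one zero_le (pow_le_one₀ zero_le c.vlt.le)
        ((card_roots' g).trans hnat)
    have h4 : P.valuation (ϖ ^ (N * e' + 1) * z) ≤ P.valuation ϖ ^ (N * e' + 1) := by
      rw [map_mul, map_pow]
      exact mul_le_of_le_one_right' ((P.valuation_le_one_iff z).2 hzP)
    have h5 : P.valuation ϖ ^ (N * e' + 1) < (P.valuation ϖ ^ N) ^ e' := by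
      rw [← pow_mul, pow_succ]
      exact mul_lt_of_lt_one_right (pow_pos hV0 _) c.vlt
    exact absurd ((h3.trans h1).trans h4) (not_le.2 h5)
  obtain ⟨β, hβroot, hβ⟩ := hclose
  have hg0 : g ≠ 0 := hmonic.ne_zero
  have hβ0 : g.eval β = 0 := (mem_roots hg0).1 hβroot
  obtain ⟨i0, hi0⟩ := c.exists_tau_mem
  -- the stabiliser of `β` in `G_F` is contained in `H`
  have hstab : ∀ σ ∈ GF P ϖ, σ β = β → σ ∈ H := by
    intro σ hσ hσβ
    obtain ⟨i, hi, -⟩ := c.hcos σ hσ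
    have h1 : σ Pi = τ i Pi := apply_eq hi u.fixH
    have h2 : τ i0 Pi = Pi := u.fixH _ hi0
    by_cases hii : i = i0
    · subst hii
      have e : σ = τ i * ((τ i)⁻¹ * σ) := by group
      rw [e]
      exact H.mul_mem hi0 hi
    · exfalso
      have h3 := hN i i0 hii
      rw [← h1, h2] at h3
      have h4 : σ Pi - Pi = σ (Pi - β) - (Pi - β) := by
        rw [map_sub, hσβ]
        ring
      have h5 : P.valuation (σ Pi - Pi) ≤ P.valuation (Pi - β) := by
        rw [h4]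
        refine (P.valuation.map_sub _ _).trans (max_le ?_ le_rfl)
        rw [val_apply hσ]
      exact absurd (h3.trans h5) (not_le.2 hβ)
  -- the conjugates of `β` are roots of `g`
  have hroot : ∀ i, τ i β ∈ g.roots.toFinset := by
    intro i
    rw [Multiset.mem_toFinset, mem_roots hg0, IsRoot.def, hgeval]
    have h1 : τ i (g.eval β) = 0 := by rw [hβ0, map_zero]
    rw [hgeval] at h1
    simp only [map_sub, map_pow, map_sum, map_mul] at h1
    rw [← h1]
    congr 1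
    exact Finset.sum_congr rfl fun j _ => by rw [hb j _ (c.hτ i)]
  have hinj : Function.Injective (fun i => τ i β) := by
    intro i j hij
    have hij' : τ i β = τ j β := hij
    have hmem : (τ j)⁻¹ * τ i ∈ GF P ϖ := mul_mem (inv_mem (c.hτ j)) (c.hτ i)
    have hfix : ((τ j)⁻¹ * τ i) β = β := by
      rw [AlgEquiv.mul_apply, hij', ← AlgEquiv.mul_apply, inv_mul_cancel, AlgEquiv.one_apply]
    have h1 : (τ j)⁻¹ * τ i ∈ H := hstab _ hmem hfix
    have h2 : (τ i)⁻¹ * τ i ∈ H := by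
      rw [inv_mul_cancel]
      exact H.one_mem
    exact c.idx_unique (c.hτ i) h2 h1
  have hcard : n ≤ g.roots.toFinset.card := by
    have h := Finset.card_le_card_of_injOn (s := Finset.univ) (t := g.roots.toFinset)
      (fun i => τ i β) (fun i _ => hroot i) hinj.injOn
    rwa [Finset.card_univ, Fintype.card_fin] at h
  have hfin : n ≤ e' :=
    hcard.trans ((Multiset.toFinset_card_le _).trans ((card_roots' g).trans hnat))
  omega

end Ctx


namespace Ctx

variable {P : ValuationSubring Qb} {ϖ : Qb} {H : Subgroup GQ} {n : ℕ} {τ : Fin n → GQ}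
  {Pi : Qb}

variable (c : Ctx P ϖ H n τ) (u : Unif P ϖ H Pi n)
include c u

/-- The valuation of a term `a · Pi^i` with `a` fixed by `G_F`. -/
theorem val_term {a : Qb} (ha : ∀ σ ∈ GF P ϖ, σ a = a) (ha0 : a ≠ 0) (i : ℕ) :
    ∃ m : ℤ, P.valuation a = P.valuation ϖ ^ m ∧
      P.valuation (a * Pi ^ i) = P.valuation Pi ^ ((n : ℤ) * m + i) := by
  obtain ⟨m, hm⟩ := c.fval a ha0 ha
  refine ⟨m, hm, ?_⟩
  rw [map_mul, map_pow, hm, ← u.pow, zpow_add₀ u.ne, zpow_mul, zpow_natCast, zpow_natCast]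

/-- Integrality of the coefficients of an integral combination of `1, Pi, …, Pi^(n−1)`. -/
theorem coeff_mem (a : Fin n → Qb) (ha : ∀ i, ∀ σ ∈ GF P ϖ, σ (a i) = a i)
    (hsum : ∑ i, a i * Pi ^ (i : ℕ) ∈ P) : ∀ i, a i ∈ P := by
  classical
  have hPi0 : (0 : P.ValueGroup) < P.valuation Pi := zero_lt_iff.2 u.ne
  have hϖ0 : (0 : P.ValueGroup) < P.valuation ϖ := zero_lt_iff.2 c.vne
  -- every term is integral
  have hT : ∀ i, P.valuation (a i * Pi ^ (i : ℕ)) ≤ 1 := by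
    by_contra hcon
    simp only [not_forall, not_le] at hcon
    obtain ⟨i, hi⟩ := hcon
    obtain ⟨k, -, hk⟩ := Finset.exists_max_image Finset.univ
      (fun j : Fin n => P.valuation (a j * Pi ^ (j : ℕ))) ⟨i, Finset.mem_univ i⟩
    have hk1 : 1 < P.valuation (a k * Pi ^ (k : ℕ)) := lt_of_lt_of_le hi (hk i (Finset.mem_univ i))
    have hak : a k ≠ 0 := by
      rintro h0
      rw [h0, zero_mul, map_zero] at hk1
      exact absurd hk1 (not_lt.2 zero_le)
    have hlt : ∀ j ∈ Finset.univ.erase k,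
        P.valuation (a j * Pi ^ (j : ℕ)) < P.valuation (a k * Pi ^ (k : ℕ)) := by
      intro j hj
      have hjk : j ≠ k := (Finset.mem_erase.1 hj).1
      refine lt_of_le_of_ne (hk j (Finset.mem_univ j)) ?_
      intro heq
      rcases eq_or_ne (a j) 0 with h0 | haj
      · rw [h0, zero_mul, map_zero] at heq
        rw [← heq] at hk1
        exact absurd hk1 (not_lt.2 zero_le)
      · obtain ⟨mj, -, hmj⟩ := val_term c u (ha j) haj j
        obtain ⟨mk, -, hmk⟩ := val_term c u (ha k) hak k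
        rw [hmj, hmk] at heq
        have hexp := zpow_right_injective₀ hPi0 u.lt.ne heq
        have hdvd : (n : ℤ) ∣ ((j : ℕ) : ℤ) - ((k : ℕ) : ℤ) :=
          ⟨mk - mj, by linear_combination hexp⟩
        have habs : |((j : ℕ) : ℤ) - ((k : ℕ) : ℤ)| < (n : ℤ) := by
          rw [abs_lt]
          have h1 := j.isLt
          have h2 := k.isLt
          constructor <;> omega
        have h0 := Int.eq_zero_of_abs_lt_dvd hdvd habs
        exact hjk (Fin.ext (by omega))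
    have hsplit : ∑ j, a j * Pi ^ (j : ℕ)
        = a k * Pi ^ (k : ℕ) + ∑ j ∈ Finset.univ.erase k, a j * Pi ^ (j : ℕ) :=
      (Finset.add_sum_erase _ _ (Finset.mem_univ k)).symm
    have hval : P.valuation (∑ j, a j * Pi ^ (j : ℕ)) = P.valuation (a k * Pi ^ (k : ℕ)) := by
      rw [hsplit]
      exact Valuation.map_add_eq_of_lt_left _
        (Valuation.map_sum_lt _ (ne_of_gt (lt_trans zero_lt_one hk1)) hlt)
    have := (P.valuation_le_one_iff _).2 hsum
    rw [hval] at this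
    exact absurd hk1 (not_lt.2 this)
  intro i
  rcases eq_or_ne (a i) 0 with h0 | hai
  · rw [h0]
    exact P.zero_mem
  · obtain ⟨m, hm, hmi⟩ := val_term c u (ha i) hai i
    have h1 := hT i
    rw [hmi, zpow_le_one_iff_right_of_lt_one₀ hPi0 u.lt] at h1
    have hm0 : 0 ≤ m := by
      by_contra hneg
      rw [not_le] at hneg
      have h2 : (n : ℤ) * m ≤ (n : ℤ) * (-1) :=
        mul_le_mul_of_nonneg_left (by omega) (by exact_mod_cast c.hn.le)
      have h3 := i.isLt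
      omega
    rw [← P.valuation_le_one_iff, hm]
    exact (zpow_le_one_iff_right_of_lt_one₀ hϖ0 c.vlt).2 hm0

/-- Every `H`-fixed integral element is a combination of `1, Pi, …, Pi^(n−1)` with integral
`G_F`-fixed coefficients (Lagrange interpolation at the conjugates of `Pi`). -/
theorem span {x : Qb} (hxP : x ∈ P) (hx : ∀ h ∈ H, h x = x) :
    ∃ a : Fin n → Qb, (∀ i, a i ∈ P ∧ ∀ σ ∈ GF P ϖ, σ (a i) = a i) ∧
      x = ∑ i, a i * Pi ^ (i : ℕ) := by
  classical
  have hinj : Set.InjOn (fun i => τ i Pi) ((Finset.univ : Finset (Fin n)) : Set (Fin n)) :=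
    (tau_inj c u).injOn
  have hdeg : (Lagrange.interpolate Finset.univ (fun i => τ i Pi) (fun i => τ i x)).degree
      < ((Finset.univ : Finset (Fin n)).card : WithBot ℕ) :=
    Lagrange.degree_interpolate_lt _ hinj
  have hev : ∀ i, (Lagrange.interpolate Finset.univ (fun i => τ i Pi) (fun i => τ i x)).eval
      (τ i Pi) = τ i x := fun i =>
    Lagrange.eval_interpolate_at_node (fun i => τ i x) hinj (Finset.mem_univ i)
  generalize Lagrange.interpolate Finset.univ (fun i => τ i Pi) (fun i => τ i x) = g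
    at hdeg hev
  -- Galois invariance of the interpolation polynomial
  have hmap : ∀ σ ∈ GF P ϖ, g.map (σ : Qb ≃ₐ[ℚ] Qb).toAlgHom.toRingHom = g := by
    intro σ hσ
    obtain ⟨π, hπ⟩ := c.exists_perm hσ
    refine Polynomial.eq_of_degrees_lt_of_eval_index_eq Finset.univ hinj ?_ hdeg ?_
    · rw [degree_map]
      exact hdeg
    · intro j _
      obtain ⟨i, rfl⟩ := π.surjective j
      have e1 : τ (π i) Pi = (σ : Qb ≃ₐ[ℚ] Qb).toAlgHom.toRingHom (τ i Pi) :=
        (hπ i Pi u.fixH).symm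
      have e2 : τ (π i) x = (σ : Qb ≃ₐ[ℚ] Qb).toAlgHom.toRingHom (τ i x) := (hπ i x hx).symm
      show (g.map _).eval (τ (π i) Pi) = g.eval (τ (π i) Pi)
      rw [hev (π i), e2, ← hev i, e1, eval_map, eval₂_at_apply]
  obtain ⟨i0, hi0⟩ := c.exists_tau_mem
  have hxg : g.eval Pi = x := by
    have h := hev i0
    rwa [u.fixH _ hi0, hx _ hi0] at h
  have hcard : ((Finset.univ : Finset (Fin n)).card : WithBot ℕ) = (n : WithBot ℕ) := by
    rw [Finset.card_univ, Fintype.card_fin]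
  rw [hcard] at hdeg
  have hnat : g.natDegree < n := by
    rcases eq_or_ne g 0 with rfl | hg0
    · rw [natDegree_zero]
      exact c.hn
    · exact (natDegree_lt_iff_degree_lt hg0).2 hdeg
  have hsum : x = ∑ i : Fin n, g.coeff (i : ℕ) * Pi ^ (i : ℕ) := by
    rw [← hxg, eval_eq_sum_range' hnat Pi]
    exact (Fin.sum_univ_eq_sum_range (fun k => g.coeff k * Pi ^ k) n).symm
  have hfix : ∀ i : Fin n, ∀ σ ∈ GF P ϖ, σ (g.coeff (i : ℕ)) = g.coeff (i : ℕ) := by
    intro i σ hσ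
    have h := congrArg (fun q : Qb[X] => q.coeff (i : ℕ)) (hmap σ hσ)
    simp only [coeff_map] at h
    exact h
  refine ⟨fun i => g.coeff (i : ℕ), fun i => ⟨?_, hfix i⟩, hsum⟩
  exact coeff_mem c u (fun i => g.coeff (i : ℕ)) hfix (by rw [← hsum]; exact hxP) i

end Ctx

/-! ### The theorem -/

/-- **Monogenicity** (`Loc.Mono`), from the toolkit statements `FVal`, `Teich`, `RootFix`,
`Arch`. -/
theorem mono (hFVal : Loc.FVal) (hTeich : Loc.Teich) (hRootFix : Loc.RootFix)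
    (hArch : Loc.Arch) : Loc.Mono := by
  intro p _ P hP e he hpe ϖ hϖ H hH hopen n hn hcos
  obtain ⟨τ, hτ, hcos⟩ := hcos
  have hp : p.Prime := Fact.out
  have hϖ0 : ϖ ≠ 0 := by
    rintro rfl
    rw [zero_pow he.ne'] at hϖ
    have : (p : Qb) = 0 := by linear_combination hϖ
    exact hp.ne_zero (by exact_mod_cast this)
  have hvp : P.valuation (p : Qb) < 1 := P.mem_nonunits_iff.1 hP
  have hvne : P.valuation ϖ ≠ 0 := (Valuation.ne_zero_iff _).2 hϖ0
  have hvlt : P.valuation ϖ < 1 := by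
    by_contra hge
    rw [not_lt] at hge
    have h1 : 1 ≤ P.valuation ϖ ^ e := one_le_pow₀ hge
    rw [← map_pow, hϖ, Valuation.map_neg] at h1
    exact absurd hvp (not_lt.2 h1)
  have c : Ctx P ϖ H n τ :=
    { vlt := hvlt
      vne := hvne
      hH := fun σ hσ => hH σ hσ
      hopen := by
        obtain ⟨L, hL, hL'⟩ := hopen
        exact ⟨L, hL, fun σ hσ hx => hL' σ hσ.1 hσ.2 hx⟩
      hn := hn
      hτ := hτ
      hcos := fun σ hσ => hcos σ hσ.1 hσ.2
      fval := by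
        intro x hx0 hx
        obtain ⟨m, hm⟩ := hFVal p P hP e he hpe ϖ hϖ x hx0 (fun σ hσ hσϖ => hx σ ⟨hσ, hσϖ⟩)
        refine ⟨m, ?_⟩
        have h1 := isPUnit_iff_val.1 hm
        rw [map_div₀, map_zpow₀] at h1
        exact (div_eq_one_iff_eq (zpow_ne_zero m hvne)).1 h1
      teich := by
        intro x hx
        obtain ⟨ζ, m, hm0, hpm, hζm, hmem⟩ := hTeich p P hP x (isPUnit_iff_val.2 hx)
        have hvζ : P.valuation ζ = 1 := by
          have h1 : P.valuation ζ ^ m = 1 ^ m := by rw [← map_pow, hζm, map_one, one_pow]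
          exact (pow_left_inj₀ zero_le zero_le hm0.ne').1 h1
        exact ⟨ζ, (P.valuation_le_one_iff ζ).1 hvζ.le,
          fun σ hσ => hRootFix p P hP ζ m hm0 hpm hζm σ hσ,
          P.mem_nonunits_iff.1 hmem⟩
      arch := by
        intro d hd
        obtain ⟨N, hN⟩ := hArch p P hP ϖ (P.mem_nonunits_iff.2 hvlt) d hd
        refine ⟨N, ?_⟩
        have h1 := (P.valuation_le_one_iff _).2 hN
        rw [map_div₀, map_pow] at h1
        exact (div_le_one₀ (zero_lt_iff.2 ((Valuation.ne_zero_iff _).2 hd))).1 h1 }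
  obtain ⟨Pi, e', he'0, he'n, hPiH, hPine, hPilt, hPipow, hPival⟩ := c.exists_unif
  have u' : Unif P ϖ H Pi e' := ⟨he'0, hPiH, hPine, hPilt, hPipow, hPival⟩
  have hle : n ≤ e' := Ctx.le_e' c u'
  have hen : e' = n := le_antisymm (Nat.le_of_dvd hn he'n) hle
  subst hen
  refine ⟨Pi, (P.valuation_le_one_iff Pi).1 hPilt.le, hPiH, ⟨Pi ^ e' / ϖ, ?_, ?_⟩, ?_, ?_⟩
  · rw [isPUnit_iff_val, map_div₀, map_pow, hPipow, div_self hvne]
  · field_simp
  · intro x hxP hx
    obtain ⟨a, ha, hxa⟩ := Ctx.span c u' hxP hx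
    exact ⟨a, fun i => ⟨(ha i).1, fun σ hσ hσϖ => (ha i).2 σ ⟨hσ, hσϖ⟩⟩, hxa⟩
  · intro a ha hsum
    exact Ctx.indep c u' a (fun i σ hσ => ha i σ hσ.1 hσ.2) hsum

end Fermat.Agent.TW.Flat.Loc.MonoPf
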