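/-
TW-FLAT (task 337, FLAT-LOC-2): the tamely ramified extension `F = Qb^I(ϖ)`, `ϖ^e = −p`.

`P` a valuation subring of `Qb` over `p`, `I` its inertia group, `K = Qb^I`.  Since `K` is
unramified (`Lib/FinFlat/Unr`), the elements `a_i ϖ^i` (`i < e`, `a_i ∈ Kˣ`) have pairwise distinct
valuations; hence

* `fIndep : Loc.FIndep` : `1, ϖ, …, ϖ^(e−1)` are linearly independent over `K`;
* `fVal : Loc.FVal` : a nonzero element fixed by `G_F = {σ ∈ I | σ ϖ = ϖ}` is `ϖ^m · unit`;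
* `fStruct : Loc.FStruct` : integral `G_F`-fixed elements are `Σ a_i ϖ^i`, `a_i ∈ K` integral;
* `fConj : Loc.FConj` : all `e`-th roots of `−p` are conjugate under `I`.

Galois theory: `I` is closed (`isClosed_inertia`), so `Gal(Qb/K) = I`
(`fixingSubgroup_fixedField_inertia`) and `Qb^{G_F} = K(ϖ)`.
-/
import Mathlib
import Fermat.Agent.TW.Flat.Interfaces
import Fermat.Agent.Lib.FinFlat.Unr
import Fermat.Agent.PT.G.DecompBasic
import Fermat.Agent.PT.Levels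
import Fermat.Agent.PT.LevelTwist

set_option autoImplicit false

namespace Fermat.Agent.TW.Flat.Loc.Tame

open Fermat.Agent.S53 Fermat.Agent.TW.Flat

local notation "Qb" => AlgebraicClosure ℚ

attribute [local instance] Fermat.Agent.Lib.GalQbar.isAlgClosure_rat
  Fermat.Agent.Lib.GalQbar.isGalois_rat Fermat.Agent.Lib.GalQbar.isAlgebraic_rat
  Fermat.Agent.Lib.GalQbar.normal_rat

/-! ### Galois theory of the inertia group -/

/-- The inertia group of a valuation subring of `Qb` is closed in the Krull topology. -/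
theorem isClosed_inertia (P : ValuationSubring Qb) :
    IsClosed ((P.inertiaSubgroupIn ℚ : Subgroup GQ) : Set GQ) := by
  have hset : ((P.inertiaSubgroupIn ℚ : Subgroup GQ) : Set GQ) =
      (P.decompositionSubgroup ℚ : Set GQ) ∩
        ⋂ x ∈ (P : Set Qb), {σ : GQ | σ x ∈ {y : Qb | y - x ∈ P.nonunits}} := by
    ext σ
    simp only [SetLike.mem_coe, Set.mem_inter_iff, Set.mem_iInter, Set.mem_ofPred_eq]
    exact Fermat.Agent.PT.Levels.mem_inertiaSubgroupIn_iff P σ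
  rw [hset]
  exact (Fermat.Agent.PT.G.isClosed_decompositionSubgroup P).inter
    (isClosed_biInter fun x _ => Fermat.Agent.PT.G.isClosed_setOf_apply_mem x _)

/-- `Gal(Qb / Qb^I) = I`. -/
theorem fixingSubgroup_fixedField_inertia (P : ValuationSubring Qb) :
    (IntermediateField.fixedField (P.inertiaSubgroupIn ℚ)).fixingSubgroup =
      P.inertiaSubgroupIn ℚ :=
  InfiniteGalois.fixingSubgroup_fixedField
    (⟨P.inertiaSubgroupIn ℚ, isClosed_inertia P⟩ : ClosedSubgroup GQ)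

/-! ### Sums of elements with pairwise distinct valuations -/

/-- In a finite sum whose nonzero terms have pairwise distinct valuations, the valuation of the
sum is the largest valuation of a term. -/
theorem val_sum_eq_of_distinct {K : Type*} [Field K] {Γ₀ : Type*}
    [LinearOrderedCommGroupWithZero Γ₀] (v : Valuation K Γ₀) {ι : Type*} (s : Finset ι)
    (t : ι → K)
    (hd : ∀ i ∈ s, ∀ j ∈ s, t i ≠ 0 → t j ≠ 0 → v (t i) = v (t j) → i = j)
    (hne : ∃ i ∈ s, t i ≠ 0) :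
    ∃ i₀ ∈ s, t i₀ ≠ 0 ∧ v (∑ i ∈ s, t i) = v (t i₀) ∧ ∀ i ∈ s, v (t i) ≤ v (t i₀) := by
  classical
  obtain ⟨i₁, hi₁, hi₁0⟩ := hne
  obtain ⟨i₀, hi₀, hmax⟩ := Finset.exists_max_image s (fun i => v (t i)) ⟨i₁, hi₁⟩
  have hi₀0 : t i₀ ≠ 0 := by
    intro h0
    have h1 := hmax i₁ hi₁
    rw [h0, map_zero] at h1
    exact hi₁0 ((map_eq_zero v).1 (le_antisymm h1 zero_le))
  have hv0 : v (t i₀) ≠ 0 := (Valuation.ne_zero_iff v).2 hi₀0
  refine ⟨i₀, hi₀, hi₀0, ?_, hmax⟩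
  have hlt : ∀ i ∈ s.erase i₀, v (t i) < v (t i₀) := by
    intro i hi
    obtain ⟨hne, his⟩ := Finset.mem_erase.1 hi
    rcases eq_or_ne (t i) 0 with h0 | h0
    · rw [h0, map_zero]
      exact zero_lt_iff.2 hv0
    · exact lt_of_le_of_ne (hmax i his) fun heq => hne (hd i his i₀ hi₀ h0 hi₀0 heq)
  rw [← Finset.add_sum_erase s t hi₀]
  exact Valuation.map_add_eq_of_lt_left v (Valuation.map_sum_lt v hv0 hlt)

/-! ### The setting `ϖ ^ e = -p` -/

section Setting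

variable {p : ℕ} [hp : Fact p.Prime] {P : ValuationSubring Qb} {e : ℕ} {ϖ : Qb}

theorem val_p_lt_one (hP : P.LiesOverPrime p) : P.valuation (p : Qb) < 1 := P.mem_nonunits_iff.mp hP

theorem natCast_ne_zero' : (p : Qb) ≠ 0 := Nat.cast_ne_zero.mpr hp.out.ne_zero

theorem pi_ne_zero (he : 0 < e) (hϖ : ϖ ^ e = -(p : Qb)) : ϖ ≠ 0 := by
  rintro rfl
  rw [zero_pow he.ne'] at hϖ
  exact natCast_ne_zero' (p := p) (neg_eq_zero.1 hϖ.symm)

theorem val_pi_pow (hϖ : ϖ ^ e = -(p : Qb)) : P.valuation ϖ ^ e = P.valuation (p : Qb) := by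
  rw [← map_pow, hϖ, Valuation.map_neg]

theorem val_pi_pos (he : 0 < e) (hϖ : ϖ ^ e = -(p : Qb)) : 0 < P.valuation ϖ :=
  zero_lt_iff.2 ((Valuation.ne_zero_iff _).2 (pi_ne_zero he hϖ))

theorem val_pi_lt_one (hP : P.LiesOverPrime p) (hϖ : ϖ ^ e = -(p : Qb)) : P.valuation ϖ < 1 := by
  by_contra hcon
  have h1 : 1 ≤ P.valuation ϖ ^ e := one_le_pow₀ (not_lt.1 hcon)
  rw [val_pi_pow hϖ] at h1
  exact absurd (val_p_lt_one hP) (not_lt.2 h1)

/-- The valuation of a nonzero inertia-fixed element is a power of `v(ϖ)^e`. -/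
theorem val_fixed (hP : P.LiesOverPrime p) (hϖ : ϖ ^ e = -(p : Qb)) {a : Qb} (ha0 : a ≠ 0) (ha : ∀ σ ∈ P.inertiaSubgroupIn ℚ, σ a = a) :
    ∃ n : ℤ, P.valuation a = P.valuation ϖ ^ ((e : ℤ) * n) := by
  obtain ⟨n, hn⟩ := Fermat.Agent.Lib.FinFlat.exists_zpow_valuation_eq_of_inertia_fixed hp.out P hP
    ha ha0
  refine ⟨n, ?_⟩
  rw [hn, map_zpow₀, ← val_pi_pow hϖ, zpow_mul, zpow_natCast]

/-- The valuation of a term `a ϖ^i`, `a` nonzero inertia-fixed. -/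
theorem val_term (hP : P.LiesOverPrime p) (he : 0 < e) (hϖ : ϖ ^ e = -(p : Qb)) {a : Qb} (ha0 : a ≠ 0) (ha : ∀ σ ∈ P.inertiaSubgroupIn ℚ, σ a = a) (i : ℕ) :
    ∃ n : ℤ, P.valuation (a * ϖ ^ i) = P.valuation ϖ ^ ((e : ℤ) * n + i) := by
  obtain ⟨n, hn⟩ := val_fixed hP hϖ ha0 ha
  refine ⟨n, ?_⟩
  rw [map_mul, map_pow, hn, zpow_add₀ (val_pi_pos he hϖ).ne', zpow_natCast]

/-- Terms `a_i ϖ^i`, `i < e`, with nonzero inertia-fixed coefficients have pairwise distinct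
valuations. -/
theorem term_distinct (hP : P.LiesOverPrime p) (he : 0 < e) (hϖ : ϖ ^ e = -(p : Qb)) (a : Fin e → Qb) (ha : ∀ i, ∀ σ ∈ P.inertiaSubgroupIn ℚ, σ (a i) = a i)
    (i j : Fin e) (hi : a i * ϖ ^ (i : ℕ) ≠ 0) (hj : a j * ϖ ^ (j : ℕ) ≠ 0)
    (hij : P.valuation (a i * ϖ ^ (i : ℕ)) = P.valuation (a j * ϖ ^ (j : ℕ))) : i = j := by
  have hai : a i ≠ 0 := left_ne_zero_of_mul hi
  have haj : a j ≠ 0 := left_ne_zero_of_mul hj
  obtain ⟨n, hn⟩ := val_term hP he hϖ hai (ha i) i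
  obtain ⟨m, hm⟩ := val_term hP he hϖ haj (ha j) j
  rw [hn, hm] at hij
  have h1 : (e : ℤ) * n + (i : ℕ) = (e : ℤ) * m + (j : ℕ) :=
    zpow_right_injective₀ (val_pi_pos he hϖ) (val_pi_lt_one hP hϖ).ne hij
  have h2 := congrArg (fun z : ℤ => z % (e : ℤ)) h1
  simp only [Int.add_comm ((e : ℤ) * _), Int.add_mul_emod_self_left] at h2
  have hi' : ((i : ℕ) : ℤ) % (e : ℤ) = (i : ℕ) :=
    Int.emod_eq_of_lt (Int.natCast_nonneg _) (by exact_mod_cast i.2)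
  have hj' : ((j : ℕ) : ℤ) % (e : ℤ) = (j : ℕ) :=
    Int.emod_eq_of_lt (Int.natCast_nonneg _) (by exact_mod_cast j.2)
  rw [hi', hj'] at h2
  exact Fin.ext (by exact_mod_cast h2)

/-- [F-INDEP] -/
theorem fIndep_aux (hP : P.LiesOverPrime p) (he : 0 < e) (hϖ : ϖ ^ e = -(p : Qb)) (a : Fin e → Qb) (ha : ∀ i, ∀ σ ∈ P.inertiaSubgroupIn ℚ, σ (a i) = a i)
    (hsum : ∑ i, a i * ϖ ^ (i : ℕ) = 0) : ∀ i, a i = 0 := by
  by_contra hcon
  push Not at hcon
  obtain ⟨i₁, hi₁⟩ := hcon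
  have hne : ∃ i ∈ (Finset.univ : Finset (Fin e)), a i * ϖ ^ (i : ℕ) ≠ 0 :=
    ⟨i₁, Finset.mem_univ _, mul_ne_zero hi₁ (pow_ne_zero _ (pi_ne_zero he hϖ))⟩
  obtain ⟨i₀, -, hi₀, hv, -⟩ := val_sum_eq_of_distinct P.valuation Finset.univ
    (fun i : Fin e => a i * ϖ ^ (i : ℕ))
    (fun i _ j _ hi hj hij => term_distinct hP he hϖ a ha i j hi hj hij) hne
  rw [hsum, map_zero] at hv
  exact hi₀ ((map_eq_zero _).1 hv.symm)

/-- Elements fixed by `G_F = {σ ∈ I | σ ϖ = ϖ}` are combinations of `1, ϖ, …, ϖ^(e−1)` with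
inertia-fixed coefficients. -/
theorem exists_coeffs_of_fixed (he : 0 < e) (hϖ : ϖ ^ e = -(p : Qb)) (x : Qb)
    (hx : ∀ σ ∈ P.inertiaSubgroupIn ℚ, σ ϖ = ϖ → σ x = x) :
    ∃ a : Fin e → Qb, (∀ i, ∀ σ ∈ P.inertiaSubgroupIn ℚ, σ (a i) = a i) ∧
      x = ∑ i, a i * ϖ ^ (i : ℕ) := by
  classical
  set K : IntermediateField ℚ Qb := IntermediateField.fixedField (P.inertiaSubgroupIn ℚ) with hK
  have hKfix : K.fixingSubgroup = P.inertiaSubgroupIn ℚ := fixingSubgroup_fixedField_inertia P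
  have hKmem : ∀ y : Qb, y ∈ K → ∀ σ ∈ P.inertiaSubgroupIn ℚ, σ y = y := by
    intro y hy σ hσ
    exact (IntermediateField.mem_fixedField_iff _ y).1 hy σ hσ
  -- `x ∈ K(ϖ)`
  have hxE : x ∈ K ⊔ IntermediateField.adjoin ℚ {ϖ} := by
    rw [← InfiniteGalois.fixedField_fixingSubgroup (K ⊔ IntermediateField.adjoin ℚ {ϖ}),
      IntermediateField.mem_fixedField_iff]
    intro σ hσ
    rw [IntermediateField.fixingSubgroup_sup, Subgroup.mem_inf, hKfix] at hσ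
    exact hx σ hσ.1 ((Fermat.Agent.PT.Levels.mem_fixingSubgroup_adjoin_simple_iff ϖ σ).1 hσ.2)
  rw [← IntermediateField.restrictScalars_adjoin_eq_sup,
    IntermediateField.mem_restrictScalars] at hxE
  have hϖalg : IsAlgebraic K ϖ := (Algebra.IsAlgebraic.isAlgebraic (R := ℚ) ϖ).tower_top K
  have hxA : x ∈ Algebra.adjoin K {ϖ} := by
    rw [← IntermediateField.adjoin_simple_toSubalgebra_of_isAlgebraic hϖalg]
    exact hxE
  rw [Algebra.adjoin_singleton_eq_range_aeval] at hxA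
  obtain ⟨r, rfl⟩ := hxA
  set q : Polynomial K := Polynomial.X ^ e + Polynomial.C (p : K) with hq
  have hqm : q.Monic := Polynomial.monic_X_pow_add_C _ he.ne'
  have hqdeg : q.natDegree = e := Polynomial.natDegree_X_pow_add_C
  have hq1 : q ≠ 1 := by
    intro h
    rw [h, Polynomial.natDegree_one] at hqdeg
    omega
  have hqroot : Polynomial.aeval ϖ q = 0 := by
    simp [hq, hϖ]
  have hdeg : (r %ₘ q).natDegree < e := by
    have := Polynomial.natDegree_modByMonic_lt r hqm hq1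
    rwa [hqdeg] at this
  refine ⟨fun i => algebraMap K Qb ((r %ₘ q).coeff i), fun i σ hσ => ?_, ?_⟩
  · exact hKmem _ ((r %ₘ q).coeff i).2 σ hσ
  · have h1 : Polynomial.aeval ϖ r = Polynomial.aeval ϖ (r %ₘ q) :=
      (Polynomial.aeval_modByMonic_eq_self_of_root hqroot).symm
    show Polynomial.aeval ϖ r = _
    rw [h1, Polynomial.aeval_eq_sum_range' hdeg,
      Fin.sum_univ_eq_sum_range (fun i => algebraMap K Qb ((r %ₘ q).coeff i) * ϖ ^ i) e]
    refine Finset.sum_congr rfl fun i _ => ?_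
    rw [Algebra.smul_def]

/-- [F-VAL] -/
theorem fVal_aux (hP : P.LiesOverPrime p) (he : 0 < e) (hϖ : ϖ ^ e = -(p : Qb)) (x : Qb) (hx0 : x ≠ 0)
    (hx : ∀ σ ∈ P.inertiaSubgroupIn ℚ, σ ϖ = ϖ → σ x = x) :
    ∃ m : ℤ, IsPUnit P (x / ϖ ^ m) := by
  obtain ⟨a, ha, hxa⟩ := exists_coeffs_of_fixed he hϖ x hx
  have hne : ∃ i ∈ (Finset.univ : Finset (Fin e)), a i * ϖ ^ (i : ℕ) ≠ 0 := by
    by_contra hcon
    push Not at hcon
    apply hx0
    rw [hxa]
    exact Finset.sum_eq_zero fun i hi => hcon i hi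
  obtain ⟨i₀, -, hi₀, hv, -⟩ := val_sum_eq_of_distinct P.valuation Finset.univ
    (fun i : Fin e => a i * ϖ ^ (i : ℕ))
    (fun i _ j _ hi hj hij => term_distinct hP he hϖ a ha i j hi hj hij) hne
  rw [← hxa] at hv
  obtain ⟨n, hn⟩ := val_term hP he hϖ (left_ne_zero_of_mul hi₀) (ha i₀) i₀
  refine ⟨(e : ℤ) * n + (i₀ : ℕ), ?_⟩
  have hϖ0 : ϖ ≠ 0 := pi_ne_zero he hϖ
  have hz0 : x / ϖ ^ ((e : ℤ) * n + (i₀ : ℕ)) ≠ 0 := div_ne_zero hx0 (zpow_ne_zero _ hϖ0)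
  have hval : P.valuation (x / ϖ ^ ((e : ℤ) * n + (i₀ : ℕ))) = 1 := by
    rw [map_div₀, map_zpow₀, hv, hn]
    exact div_self (zpow_ne_zero _ (val_pi_pos he hϖ).ne')
  refine ⟨hz0, (P.valuation_le_one_iff _).1 hval.le, ?_⟩
  rw [← P.valuation_le_one_iff, map_inv₀, hval, inv_one]

/-- [F-STRUCT] -/
theorem fStruct_aux (hP : P.LiesOverPrime p) (he : 0 < e) (hϖ : ϖ ^ e = -(p : Qb)) (x : Qb) (hxP : x ∈ P)
    (hx : ∀ σ ∈ P.inertiaSubgroupIn ℚ, σ ϖ = ϖ → σ x = x) :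
    ∃ a : Fin e → Qb, (∀ i, a i ∈ P ∧ ∀ σ ∈ P.inertiaSubgroupIn ℚ, σ (a i) = a i) ∧
      x = ∑ i, a i * ϖ ^ (i : ℕ) := by
  obtain ⟨a, ha, hxa⟩ := exists_coeffs_of_fixed he hϖ x hx
  refine ⟨a, fun i => ⟨?_, ha i⟩, hxa⟩
  rcases eq_or_ne (a i) 0 with h0 | h0
  · rw [h0]
    exact P.zero_mem
  have hϖ0 : ϖ ≠ 0 := pi_ne_zero he hϖ
  have hne : ∃ i ∈ (Finset.univ : Finset (Fin e)), a i * ϖ ^ (i : ℕ) ≠ 0 :=
    ⟨i, Finset.mem_univ _, mul_ne_zero h0 (pow_ne_zero _ hϖ0)⟩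
  obtain ⟨i₀, -, -, hv, hmax⟩ := val_sum_eq_of_distinct P.valuation Finset.univ
    (fun i : Fin e => a i * ϖ ^ (i : ℕ))
    (fun i _ j _ hi hj hij => term_distinct hP he hϖ a ha i j hi hj hij) hne
  rw [← hxa] at hv
  have hle : P.valuation (a i * ϖ ^ (i : ℕ)) ≤ 1 := by
    refine (hmax i (Finset.mem_univ _)).trans ?_
    rw [← hv]
    exact (P.valuation_le_one_iff _).2 hxP
  obtain ⟨n, hn⟩ := val_fixed hP hϖ h0 (ha i)
  have hw0 : 0 < P.valuation ϖ := val_pi_pos he hϖ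
  have hw1 : P.valuation ϖ < 1 := val_pi_lt_one hP hϖ
  have hle' : P.valuation ϖ ^ ((e : ℤ) * n + (i : ℕ)) ≤ P.valuation ϖ ^ (0 : ℤ) := by
    rw [zpow_zero, zpow_add₀ hw0.ne', zpow_natCast, ← hn, ← map_pow, ← map_mul]
    exact hle
  have h1 : (0 : ℤ) ≤ (e : ℤ) * n + (i : ℕ) := (zpow_le_zpow_iff_right_of_lt_one₀ hw0 hw1).1 hle'
  have hn0 : 0 ≤ n := by
    by_contra hcon
    push Not at hcon
    have h2 : (e : ℤ) * n ≤ (e : ℤ) * (-1) :=
      Int.mul_le_mul_of_nonneg_left (by omega) (Int.natCast_nonneg e)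
    have h3 : ((i : ℕ) : ℤ) < (e : ℤ) := by exact_mod_cast i.2
    omega
  rw [← P.valuation_le_one_iff, hn]
  have h4 : P.valuation ϖ ^ ((e : ℤ) * n) ≤ P.valuation ϖ ^ (0 : ℤ) :=
    (zpow_le_zpow_iff_right_of_lt_one₀ hw0 hw1).2 (mul_nonneg (Int.natCast_nonneg e) hn0)
  rwa [zpow_zero] at h4

/-- [F-CONJ] -/
theorem fConj_aux (hP : P.LiesOverPrime p) (he : 0 < e) (hϖ : ϖ ^ e = -(p : Qb)) (ξ : Qb) (hξ : ξ ^ e = 1) :
    ∃ τ ∈ P.inertiaSubgroupIn ℚ, τ ϖ = ξ * ϖ := by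
  classical
  set K : IntermediateField ℚ Qb := IntermediateField.fixedField (P.inertiaSubgroupIn ℚ) with hK
  have hKfix : K.fixingSubgroup = P.inertiaSubgroupIn ℚ := fixingSubgroup_fixedField_inertia P
  have hKmem : ∀ y : Qb, y ∈ K → ∀ σ ∈ P.inertiaSubgroupIn ℚ, σ y = y := by
    intro y hy σ hσ
    exact (IntermediateField.mem_fixedField_iff _ y).1 hy σ hσ
  have : Normal K Qb := Normal.tower_top_of_normal ℚ K Qb
  have hϖalg : IsAlgebraic K ϖ := (Algebra.IsAlgebraic.isAlgebraic (R := ℚ) ϖ).tower_top K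
  set q : Polynomial K := Polynomial.X ^ e + Polynomial.C (p : K) with hq
  have hqm : q.Monic := Polynomial.monic_X_pow_add_C _ he.ne'
  have hqdeg : q.natDegree = e := Polynomial.natDegree_X_pow_add_C
  have hqroot : Polynomial.aeval ϖ q = 0 := by
    simp [hq, hϖ]
  have hmin : q = minpoly K ϖ := by
    refine minpoly.unique K ϖ hqm hqroot fun g hgm hg => ?_
    by_contra hlt
    push Not at hlt
    have hgdeg : g.natDegree < e := by
      have := Polynomial.natDegree_lt_natDegree hgm.ne_zero hlt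
      rwa [hqdeg] at this
    have h0 := Polynomial.aeval_eq_sum_range' hgdeg ϖ
    rw [hg] at h0
    have hall := fIndep_aux hP he hϖ (fun i : Fin e => algebraMap K Qb (g.coeff i))
      (fun i σ hσ => hKmem _ (g.coeff i).2 σ hσ) (by
        rw [Fin.sum_univ_eq_sum_range (fun i => algebraMap K Qb (g.coeff i) * ϖ ^ i) e, h0]
        refine Finset.sum_congr rfl fun i _ => ?_
        rw [Algebra.smul_def])
    have h1 := hall ⟨g.natDegree, hgdeg⟩
    have h2 : g.coeff g.natDegree = 1 := hgm.coeff_natDegree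
    simp only [h2, map_one] at h1
    exact one_ne_zero h1
  have hroot : Polynomial.aeval (ξ * ϖ) (minpoly K ϖ) = 0 := by
    rw [← hmin]
    simp [hq, mul_pow, hξ, hϖ]
  obtain ⟨σ, hσ⟩ := minpoly.exists_algEquiv_of_root' hϖalg hroot
  refine ⟨σ.restrictScalars ℚ, ?_, hσ⟩
  rw [← hKfix, IntermediateField.mem_fixingSubgroup_iff]
  intro y hy
  exact σ.commutes ⟨y, hy⟩

end Setting

/-! ### The toolkit statements -/

/-- **[F-INDEP]** -/
theorem fIndep : Loc.FIndep := by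
  intro p _ P hP e he _ ϖ hϖ a ha hsum
  exact fIndep_aux hP he hϖ a ha hsum

/-- **[F-VAL]** -/
theorem fVal : Loc.FVal := by
  intro p _ P hP e he _ ϖ hϖ x hx0 hx
  exact fVal_aux hP he hϖ x hx0 hx

/-- **[F-STRUCT]** -/
theorem fStruct : Loc.FStruct := by
  intro p _ P hP e he _ ϖ hϖ x hxP hx
  exact fStruct_aux hP he hϖ x hxP hx

/-- **[F-CONJ]** -/
theorem fConj : Loc.FConj := by
  intro p _ P hP e he _ ϖ hϖ ξ hξ
  exact fConj_aux hP he hϖ ξ hξ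

end Fermat.Agent.TW.Flat.Loc.Tame
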