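/-
TW-FLAT (task 336), local toolkit I, part 2: `arch : Loc.Arch` and `teich : Loc.Teich`.

Both use the henselisation `decompField K P` of a number field `K` at `P` (PT/G/KumLocal): its
value group is generated by a uniformiser of `K` and its residue field is finite.
-/
import Mathlib
import Fermat.Agent.TW.Flat.Local.Basic
import Fermat.Agent.PT.G.KumLocal

set_option autoImplicit false

namespace Fermat.Agent.TW.Flat.Loc.Basic

open Fermat.Agent.S53 Fermat.Agent.TW Fermat.Agent.TW.Flat Fermat.Agent.PT.Kummer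

local notation "Qb" => AlgebraicClosure ℚ

attribute [local instance] Fermat.Agent.Lib.GalQbar.isAlgebraic_rat

/-- The field generated by finitely many elements of `ℚ̄` is a number field. -/
theorem numberField_adjoin (S : Set Qb) [Finite S] :
    NumberField (IntermediateField.adjoin ℚ S) := by
  have : FiniteDimensional ℚ (IntermediateField.adjoin ℚ S) :=
    IntermediateField.finiteDimensional_adjoin (fun x _ => Algebra.IsIntegral.isIntegral x)
  exact ⟨⟩

/-- **Rank one.** For a nonzero non-unit `m` and nonzero `d` there are a "uniformiser valuation"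
`t < 1` and integers `a > 0`, `b` with `v(m) = t ^ a`, `v(d) = t ^ b`. -/
theorem exists_valuation_eq_zpow (p : ℕ) [Fact p.Prime] (P : ValuationSubring Qb)
    (hP : P.LiesOverPrime p) (x y : Qb) (hx : x ≠ 0) (hy : y ≠ 0) :
    ∃ π : Qb, π ≠ 0 ∧ P.valuation π < 1 ∧ ∃ a b : ℤ,
      P.valuation x = P.valuation π ^ a ∧ P.valuation y = P.valuation π ^ b := by
  have hp : p.Prime := Fact.out
  let K : IntermediateField ℚ Qb := IntermediateField.adjoin ℚ {x, y}
  have : NumberField K := numberField_adjoin {x, y}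
  obtain ⟨π, -, hπ1, hπ0, hπ⟩ := exists_uniformizer_of_dense hp hP K (decompField K P)
    (dense_decompField K hp P hP)
  have hxK : x ∈ decompField K P :=
    le_decompField K P (IntermediateField.subset_adjoin ℚ _ (by simp))
  have hyK : y ∈ decompField K P :=
    le_decompField K P (IntermediateField.subset_adjoin ℚ _ (by simp))
  obtain ⟨a, ha⟩ := hπ x hxK hx
  obtain ⟨b, hb⟩ := hπ y hyK hy
  exact ⟨π, hπ0, hπ1, a, b, ha, hb⟩

/-- [ARCH] -/
theorem arch : Loc.Arch := by
  intro p _ P hP m hm d hd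
  by_cases hm0 : m = 0
  · exact ⟨1, by rw [hm0, pow_one, zero_div]; exact P.zero_mem⟩
  obtain ⟨π, hπ0, hπ1, a, b, ha, hb⟩ := exists_valuation_eq_zpow p P hP m d hm0 hd
  have hvm : P.valuation m < 1 := P.mem_nonunits_iff.mp hm
  have ht0 : 0 < P.valuation π := zero_lt_iff.mpr ((Valuation.ne_zero_iff _).mpr hπ0)
  have ha0 : 0 < a := by
    by_contra hcon
    rw [not_lt] at hcon
    have h1 : 1 ≤ P.valuation π ^ a := one_le_zpow_of_nonpos₀ ht0 hπ1.le hcon
    rw [← ha] at h1
    exact absurd hvm (not_lt.mpr h1)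
  refine ⟨b.toNat, ?_⟩
  rw [← P.valuation_le_one_iff, map_div₀, map_pow, ha, hb, ← zpow_natCast, ← zpow_mul]
  have hd0 : 0 < P.valuation π ^ b := zpow_pos ht0 b
  rw [div_le_one₀ hd0]
  apply zpow_le_zpow_right_of_le_one₀ ht0 hπ1.le
  rcases le_or_gt b 0 with hb0 | hb0
  · rw [Int.toNat_of_nonpos hb0]
    simpa using hb0
  · rw [Int.toNat_of_nonneg hb0.le]
    nlinarith

/-- [TEICH] -/
theorem teich : Loc.Teich := by
  intro p _ P hP x hx
  have hp : p.Prime := Fact.out
  let K : IntermediateField ℚ Qb := IntermediateField.adjoin ℚ {x}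
  have : NumberField K := numberField_adjoin {x}
  let M : IntermediateField ℚ Qb := decompField K P
  let R : ValuationSubring M := P.comap (algebraMap M Qb)
  have : Finite (IsLocalRing.ResidueField R) := finite_residueField_decompField K hp P hP
  let κ := IsLocalRing.ResidueField R
  have : CharP κ p := by
    refine (CharP.charP_iff_prime_eq_zero hp).mpr ?_
    have h1 : ((p : ℕ) : R) ∈ IsLocalRing.maximalIdeal R := by
      rw [mem_maximalIdeal_comap_iff]
      have : algebraMap M Qb (((p : ℕ) : R) : M) = (p : Qb) := by simp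
      rw [this]
      exact P.mem_nonunits_iff.mp hP
    have h2 := (IsLocalRing.residue_eq_zero_iff _).mpr h1
    simpa using h2
  have hxM : x ∈ M := le_decompField K P (IntermediateField.mem_adjoin_simple_self ℚ x)
  let x' : R := ⟨⟨x, hxM⟩, hx.2.1⟩
  have hx'u : IsUnit x' := by
    rw [isUnit_comap_iff]
    exact (isPUnit_iff_valuation_eq_one P x).mp hx
  let _ : Fintype κ := Fintype.ofFinite κ
  have hres : IsLocalRing.residue R x' ≠ 0 := by
    intro h0
    rw [IsLocalRing.residue_eq_zero_iff] at h0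
    exact (IsLocalRing.mem_maximalIdeal _).mp h0 hx'u
  have h1 : (IsLocalRing.residue R x') ^ (Fintype.card κ - 1) = 1 :=
    FiniteField.pow_card_sub_one_eq_one _ hres
  obtain ⟨f, -, hf⟩ := FiniteField.card κ p
  set m : ℕ := p ^ (f : ℕ) - 1 with hm
  have hpf : p ≤ p ^ (f : ℕ) := by
    calc p = p ^ 1 := (pow_one p).symm
      _ ≤ p ^ (f : ℕ) := Nat.pow_le_pow_right hp.pos f.pos
  have hm0 : 0 < m := by
    have := hp.two_le
    omega
  have hpm : ¬ p ∣ m := by
    intro hdvd
    have h2 : p ∣ p ^ (f : ℕ) := dvd_pow_self p f.pos.ne'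
    have h3 : p ∣ p ^ (f : ℕ) - m := Nat.dvd_sub h2 hdvd
    have h4 : p ^ (f : ℕ) - m = 1 := by omega
    rw [h4] at h3
    exact hp.one_lt.ne' (Nat.dvd_one.mp h3)
  have h2 : x ^ m - 1 ∈ P.nonunits := by
    have h3 : x' ^ m - 1 ∈ IsLocalRing.maximalIdeal R := by
      rw [← IsLocalRing.residue_eq_zero_iff, map_sub, map_pow, map_one, hm, ← hf, h1, sub_self]
    have h4 := (mem_maximalIdeal_comap_iff P _).mp h3
    rw [P.mem_nonunits_iff]
    exact h4
  have : NeZero (m : Qb) := ⟨by exact_mod_cast hm0.ne'⟩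
  obtain ⟨ζ₀, hζ₀⟩ := HasEnoughRootsOfUnity.exists_primitiveRoot Qb m
  have hfac := Polynomial.X_pow_sub_one_eq_prod hm0 hζ₀
  have heval : x ^ m - 1 = ∏ ζ ∈ Polynomial.nthRootsFinset m (1 : Qb), (x - ζ) := by
    have := congrArg (Polynomial.eval x) hfac
    simpa [Polynomial.eval_prod] using this
  by_contra hcon
  push Not at hcon
  have hall : ∀ ζ ∈ Polynomial.nthRootsFinset m (1 : Qb), 1 ≤ P.valuation (x - ζ) := by
    intro ζ hζ
    by_contra hlt
    rw [not_le] at hlt
    exact hcon ζ m hm0 hpm ((Polynomial.mem_nthRootsFinset hm0 1).mp hζ)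
      (P.mem_nonunits_iff.mpr hlt)
  have h5 : 1 ≤ P.valuation (x ^ m - 1) := by
    rw [heval, map_prod]
    exact Finset.one_le_prod' hall
  exact absurd (P.mem_nonunits_iff.mp h2) (not_lt.mpr h5)

end Fermat.Agent.TW.Flat.Loc.Basic
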