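/-
TW-FLAT (task 338, FLAT-LOC-3): `Loc.Mono`, unconditionally — `MonoPf.mono` fed with the landed
producers `Tame.fVal`, `Basic.teich`, `Basic.rootFix`, `Basic.arch`.
-/
import Mathlib
import Fermat.Agent.TW.Flat.Local.Mono
import Fermat.Agent.TW.Flat.Local.Tame
import Fermat.Agent.TW.Flat.Local.Teich

set_option autoImplicit false

namespace Fermat.Agent.TW.Flat.Loc.MonoPf

/-- **[MONO]** monogenicity of the valuation ring of a finite extension of `F = Qb^I(ϖ)`. -/
theorem mono_final : Loc.Mono :=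
  mono Fermat.Agent.TW.Flat.Loc.Tame.fVal Fermat.Agent.TW.Flat.Loc.Basic.teich
    Fermat.Agent.TW.Flat.Loc.Basic.rootFix Fermat.Agent.TW.Flat.Loc.Basic.arch

end Fermat.Agent.TW.Flat.Loc.MonoPf
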