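/-
TW-FLAT (task 336), local toolkit I, part 3: `unr : Loc.Unr` — a nonzero element of `ℚ̄` fixed by
the inertia group of `P` (over `p`) is a power of `p` times a unit of `P`.

Route: let `F` be the normal closure of `ℚ(x)` and `p ^ f` the cardinality of the residue field of
`P ∩ F`; put `m = p ^ f − 1`, `K = ℚ(ζ_m)`.  Every `τ ∈ D ⊓ G_K` acts on the residue field of
`F·K` as a power `φ ^ j` of Frobenius with `ζ ^ (p ^ j) = ζ`, so `f ∣ j` and `τ` acts trivially on
the residue field of `F`; by inertia lifting `τ ∈ G_F · I`, hence `τ x = x`.  So `x` lies in the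
henselisation `decompField K P` of `K`, in which `K` is dense; and `K / ℚ` is normal and
unramified at `p`, so the value group of `K` is `p ^ ℤ` (PT/G/KumUnram).
-/
import Mathlib
import Fermat.Agent.TW.Flat.Local.Teich
import Fermat.Agent.PT.G.KumUnram

set_option autoImplicit false

namespace Fermat.Agent.TW.Flat.Loc.Basic

open Fermat.Agent.S53 Fermat.Agent.TW Fermat.Agent.TW.Flat Fermat.Agent.PT.Kummer
  Fermat.Agent.PT.KumBridge Fermat.Agent.PT.Levels Fermat.Agent.Lib.FrobeniusExists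
  Fermat.Agent.PT.G NumberField

local notation "Qb" => AlgebraicClosure ℚ

attribute [local instance] Fermat.Agent.Lib.GalQbar.isAlgebraic_rat isAlgClosure_rat isGalois_rat

/-- **The residue field of a finite level is finite.**  There is `f ≥ 1` such that
`b ^ (p ^ f) ≡ b` modulo the maximal ideal of `P` for all algebraic integers `b` of `F`. -/
theorem exists_pow_card_sub_mem_nonunits (p : ℕ) [Fact p.Prime] (P : ValuationSubring Qb)
    (hP : P.LiesOverPrime p) (F : IntermediateField ℚ Qb) [FiniteDimensional ℚ F] :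
    ∃ f : ℕ, 0 < f ∧ ∀ b : Qb, b ∈ F → IsIntegral ℤ b → b ^ (p ^ f) - b ∈ P.nonunits := by
  have hp : p.Prime := Fact.out
  have : NumberField F := ⟨⟩
  set v := primeOf F P hp.ne_zero hP with hv
  have : v.asIdeal.IsMaximal := v.isMaximal
  let _ : Field (𝓞 F ⧸ v.asIdeal) := Ideal.Quotient.field v.asIdeal
  have : Finite (𝓞 F ⧸ v.asIdeal) := Ideal.finiteQuotientOfFreeOfNeBot v.asIdeal v.ne_bot
  have : CharP (𝓞 F ⧸ v.asIdeal) p := by
    refine (CharP.charP_iff_prime_eq_zero hp).mpr ?_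
    have h1 : ((p : ℕ) : 𝓞 F) ∈ v.asIdeal := natCast_mem_primeIdeal F P hP
    have h2 := Ideal.Quotient.eq_zero_iff_mem.mpr h1
    simpa using h2
  let _ : Fintype (𝓞 F ⧸ v.asIdeal) := Fintype.ofFinite _
  obtain ⟨f, -, hf⟩ := FiniteField.card (𝓞 F ⧸ v.asIdeal) p
  refine ⟨f, f.pos, fun b hbF hb => ?_⟩
  have hbint : IsIntegral ℤ (⟨b, hbF⟩ : F) := by
    rw [← isIntegral_algebraMap_iff (FaithfulSMul.algebraMap_injective F Qb)]
    exact hb
  let y : 𝓞 F := ⟨⟨b, hbF⟩, hbint⟩
  have hyb : algebraMap (𝓞 F) Qb y = b := rfl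
  have h1 := FiniteField.pow_card (Ideal.Quotient.mk v.asIdeal y)
  rw [hf, ← map_pow, Ideal.Quotient.eq, hv, mem_primeOf_iff, map_sub, map_pow, hyb] at h1
  exact P.mem_nonunits_iff.mpr h1

/-- Iterating `b ^ (p ^ f) ≡ b`. -/
theorem pow_pow_mul_sub_mem_nonunits (p : ℕ) (P : ValuationSubring Qb)
    (F : IntermediateField ℚ Qb) (f : ℕ)
    (hf : ∀ b : Qb, b ∈ F → IsIntegral ℤ b → b ^ (p ^ f) - b ∈ P.nonunits) (t : ℕ) (b : Qb)
    (hbF : b ∈ F) (hb : IsIntegral ℤ b) : b ^ (p ^ (f * t)) - b ∈ P.nonunits := by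
  induction t with
  | zero => simp
  | succ t ih =>
    have h1 := hf (b ^ (p ^ (f * t))) (pow_mem hbF _) (hb.pow _)
    have e : b ^ (p ^ (f * (t + 1))) - b =
        ((b ^ (p ^ (f * t))) ^ (p ^ f) - b ^ (p ^ (f * t))) + (b ^ (p ^ (f * t)) - b) := by
      rw [← pow_mul, ← pow_add, mul_add, mul_one]
      ring
    rw [e]
    exact P.nonunits.add_mem h1 ih

/-- **Inertia-fixed elements lie in an unramified cyclotomic henselisation.**  If `x` is fixed
by the inertia group of `P`, there are `m` prime to `p` and a primitive `m`-th root of unity `ζ`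
such that `x` is fixed by `D ⊓ G_{ℚ(ζ)}`. -/
theorem exists_root_forall_decomp_fix (p : ℕ) [Fact p.Prime] (P : ValuationSubring Qb)
    (hP : P.LiesOverPrime p) (x : Qb) (hxI : ∀ σ ∈ P.inertiaSubgroupIn ℚ, σ x = x) :
    ∃ (m : ℕ) (ζ : Qb), 0 < m ∧ ¬ p ∣ m ∧ IsPrimitiveRoot ζ m ∧
      ∀ τ ∈ P.decompositionSubgroup ℚ, τ ζ = ζ → τ x = x := by
  have hp : p.Prime := Fact.out
  -- the finite normal level generated by `x`
  have hxint : IsIntegral ℚ x := Algebra.IsIntegral.isIntegral x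
  have hK₀fin : FiniteDimensional ℚ (IntermediateField.adjoin ℚ {x}) :=
    IntermediateField.adjoin.finiteDimensional hxint
  set F : IntermediateField ℚ Qb :=
    IntermediateField.normalClosure ℚ (IntermediateField.adjoin ℚ {x}) Qb with hF
  have hFfin : FiniteDimensional ℚ F := inferInstance
  have hFnormal : Normal ℚ F := normalClosure.normal ℚ _ Qb
  have hxF : x ∈ F :=
    IntermediateField.le_normalClosure _ (IntermediateField.mem_adjoin_simple_self ℚ x)
  have hFN : (F.fixingSubgroup).Normal := fixingSubgroup_normal F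
  obtain ⟨f, hf0, hf⟩ := exists_pow_card_sub_mem_nonunits p P hP F
  -- the root of unity
  have hpf : p ≤ p ^ f := by
    calc p = p ^ 1 := (pow_one p).symm
      _ ≤ p ^ f := Nat.pow_le_pow_right hp.pos hf0
  set m : ℕ := p ^ f - 1 with hm
  have hm0 : 0 < m := by
    have := hp.two_le
    omega
  have hpm : ¬ p ∣ m := by
    intro hdvd
    have h2 : p ∣ p ^ f := dvd_pow_self p hf0.ne'
    have h3 : p ∣ p ^ f - m := Nat.dvd_sub h2 hdvd
    have h4 : p ^ f - m = 1 := by omega
    rw [h4] at h3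
    exact hp.one_lt.ne' (Nat.dvd_one.mp h3)
  have : NeZero m := ⟨hm0.ne'⟩
  obtain ⟨ζ, hζ⟩ := HasEnoughRootsOfUnity.exists_primitiveRoot Qb m
  have hζ1 := hζ.pow_eq_one
  have hζ0 : ζ ≠ 0 := hζ.ne_zero hm0.ne'
  refine ⟨m, ζ, hm0, hpm, hζ, fun τ hτD hτζ => ?_⟩
  have hζint : IsIntegral ℚ ζ := (hζ.isIntegral hm0).tower_top
  have hKfin : FiniteDimensional ℚ (IntermediateField.adjoin ℚ {ζ}) :=
    IntermediateField.adjoin.finiteDimensional hζint
  have hKn : ((IntermediateField.adjoin ℚ {ζ}).fixingSubgroup).Normal :=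
    normal_fixingSubgroup_adjoin_root hζ
  set F' : IntermediateField ℚ Qb := F ⊔ IntermediateField.adjoin ℚ {ζ} with hF'
  have hF'fin : FiniteDimensional ℚ F' := IntermediateField.finiteDimensional_sup F _
  have hfix : F'.fixingSubgroup =
      F.fixingSubgroup ⊓ (IntermediateField.adjoin ℚ {ζ}).fixingSubgroup :=
    IntermediateField.fixingSubgroup_sup
  have hF'n : (F'.fixingSubgroup).Normal := by
    rw [hfix]
    infer_instance
  have hF'gal : IsGalois ℚ F' := (InfiniteGalois.normal_iff_isGalois F').mp hF'n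
  have hF'normal : Normal ℚ F' := IsGalois.to_normal
  -- a Frobenius element and the congruence on `F'`
  obtain ⟨φ, hφ⟩ := exists_isFrobeniusAt_of_liesOverPrime hp P hP
  obtain ⟨j, hj⟩ := exists_frobenius_pow_congr hp P hP hφ F' hτD
  have hζF' : ζ ∈ F' := (le_sup_right : IntermediateField.adjoin ℚ {ζ} ≤ F')
    (IntermediateField.mem_adjoin_simple_self ℚ ζ)
  have hζZ : IsIntegral ℤ ζ := hζ.isIntegral hm0
  have h1 : ζ ^ (p ^ j) = ζ := by
    have h2 := hj ζ hζF' hζZ
    rw [hτζ, frobenius_pow_apply_root hp P hP hφ hpm hζ1] at h2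
    exact (eq_of_sub_mem_nonunits_of_pow_eq_one_of_not_dvd P hp hpm hP hζ1
      (by rw [← pow_mul, mul_comm, pow_mul, hζ1, one_pow]) h2).symm
  have hfj : f ∣ j := by
    have hpj : 1 ≤ p ^ j := Nat.one_le_pow _ _ hp.pos
    have e1 : ζ ^ (p ^ j) = ζ ^ (p ^ j - 1) * ζ := by
      rw [← pow_succ]
      congr 1
      omega
    rw [e1, mul_eq_right₀ hζ0, hζ.pow_eq_one_iff_dvd, hm,
      pow_sub_one_dvd_pow_sub_one_iff hp.one_lt] at h1
    exact h1
  obtain ⟨t, rfl⟩ := hfj
  -- `τ` acts trivially on the residue field of `F`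
  have h3 : ∀ b : Qb, IsIntegral ℤ b → (∀ n ∈ F.fixingSubgroup, n b = b) →
      P.valuation (τ b - b) < 1 := by
    intro b hb hfixb
    have hbF : b ∈ F := by
      rw [← InfiniteGalois.fixedField_fixingSubgroup F, IntermediateField.mem_fixedField_iff]
      exact hfixb
    have hbP : b ∈ P := by
      rw [← P.valuation_le_one_iff]
      exact val_le_one_of_isIntegral _ hb
    have ha := hj b ((le_sup_left : F ≤ F') hbF) hb
    have hb2 := frobenius_pow_sub_pow_mem_nonunits P φ p hφ (f * t) hbP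
    have hc := pow_pow_mul_sub_mem_nonunits p P F f hf t b hbF hb
    have e : τ b - b = (τ b - (φ ^ (f * t)) b) + ((φ ^ (f * t)) b - b ^ (p ^ (f * t))) +
        (b ^ (p ^ (f * t)) - b) := by ring
    rw [e]
    exact P.mem_nonunits_iff.mp (P.nonunits.add_mem (P.nonunits.add_mem ha hb2) hc)
  obtain ⟨n, hn, hnτ⟩ := Fermat.Agent.Lib.InertiaLift.exists_mul_mem_inertiaSubgroupIn hp P hP
    F.fixingSubgroup (InfiniteGalois.fixingSubgroup_isClosed F) τ h3
  have h4 := hxI _ hnτ
  -- `n * τ = τ * n'` with `n' ∈ G_F`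
  have hn' : τ⁻¹ * n * τ ∈ F.fixingSubgroup := by
    have := hFN.conj_mem n hn τ⁻¹
    rwa [inv_inv] at this
  have e2 : n * τ = τ * (τ⁻¹ * n * τ) := by group
  rw [e2, AlgEquiv.mul_apply] at h4
  have h5 : (τ⁻¹ * n * τ) x = x := hn' ⟨x, hxF⟩
  rwa [h5] at h4

/-- [UNR] -/
theorem unr : Loc.Unr := by
  intro p _ P hP x hx0 hxI
  have hp : p.Prime := Fact.out
  obtain ⟨m, ζ, hm0, hpm, hζ, hfix⟩ := exists_root_forall_decomp_fix p P hP x hxI
  have hζ1 := hζ.pow_eq_one
  have hζint : IsIntegral ℚ ζ := (hζ.isIntegral hm0).tower_top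
  set K : IntermediateField ℚ Qb := IntermediateField.adjoin ℚ {ζ} with hK
  have hKfin : FiniteDimensional ℚ K := IntermediateField.adjoin.finiteDimensional hζint
  have : NeZero m := ⟨hm0.ne'⟩
  have hKn : (K.fixingSubgroup).Normal := normal_fixingSubgroup_adjoin_root hζ
  have hKgal : IsGalois ℚ K := (InfiniteGalois.normal_iff_isGalois K).mp hKn
  have hKnormal : Normal ℚ K := IsGalois.to_normal
  have : NumberField K := ⟨⟩
  have hIK : P.inertiaSubgroupIn ℚ ≤ K.fixingSubgroup := fun σ hσ =>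
    (mem_fixingSubgroup_adjoin_simple_iff ζ σ).mpr (inertia_apply_root hp P hP hσ hpm hζ1)
  have hxK : x ∈ decompField K P := by
    rw [mem_decompField_iff]
    intro τ hτ
    obtain ⟨hτD, hτK⟩ := Subgroup.mem_inf.mp hτ
    exact hfix τ hτD ((mem_fixingSubgroup_adjoin_simple_iff ζ τ).mp hτK)
  obtain ⟨y, hyK, hy⟩ := exists_mem_valuation_eq hp hP K (decompField K P)
    (dense_decompField K hp P hP) hxK hx0
  have hy0 : y ≠ 0 := by
    rintro rfl
    rw [map_zero] at hy
    exact (Valuation.ne_zero_iff _).mpr hx0 hy.symm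
  obtain ⟨n, hn⟩ := exists_zpow_valuation_eq K hp P hP hIK hyK hy0
  refine ⟨n, ?_⟩
  have hp0 : (p : Qb) ≠ 0 := by exact_mod_cast hp.ne_zero
  rw [isPUnit_iff_valuation_eq_one, map_div₀, ← hy, hn]
  exact div_self ((Valuation.ne_zero_iff _).mpr (zpow_ne_zero n hp0))

end Fermat.Agent.TW.Flat.Loc.Basic
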