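/-
TW-FLAT, `Loc.Mono` (shadow of row 338): monogenicity of the valuation ring of a finite
extension of `F = Qb^I(ϖ)`.

`theorem mono : Loc.Mono` — unconditional.

Route (no module theory over `O_F`, no dimension of `L / F`): with `τ i` (`i < n`) representatives
of `G_F / H` and `Π` a uniformiser of the `H`-fixed elements, `v(Π)^e' = v(ϖ)`:
* every integral `H`-fixed element is a `G_F`-fixed combination of `Π^j`, `j < e'`, up to
  `ϖ^N · (integral)`, for every `N` (Teichmüller representatives, `MonoB/Approx`);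
* hence a combination `Σ c_i τ_i` killing the `Π^j`, `j < e'`, kills all `H`-fixed elements
  (continuity), so `c = 0` by Dedekind independence (`H` is closed, `MonoB/Group`);
* so the `n × e'` matrix `(τ_i Π^j)` has trivial left kernel: `n ≤ e'`, hence `e' = n` and the
  matrix is invertible; solving `M a = (τ_i x)` gives `G_F`-fixed coefficients.
-/
import Mathlib
import Fermat.Agent.TW.Flat.Local.Tame
import Fermat.Agent.TW.Flat.Local.Teich
import Fermat.Agent.TW.Flat.Local.MonoB.Group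
import Fermat.Agent.TW.Flat.Local.MonoB.Unif
import Fermat.Agent.TW.Flat.Local.MonoB.Approx

set_option autoImplicit false

namespace Fermat.Agent.TW.Flat.Loc.MonoB

open Fermat.Agent.S53 Fermat.Agent.TW.Flat

local notation "Qb" => AlgebraicClosure ℚ

section Setting

variable {p : ℕ} [hp : Fact p.Prime] {P : ValuationSubring Qb} {e : ℕ} {ϖ : Qb}
  {H : Subgroup GQ} {n : ℕ} {τ : Fin n → GQ} {Pi : Qb} {e' : ℕ}

/-- The matrix `(τ_i Π^j)` has trivial left kernel. -/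
theorem coeff_eq_zero (h : CosetData (GF P ϖ) H n τ) (hcl : IsClosed (H : Set GQ))
    (hP : P.LiesOverPrime p) (he : 0 < e) (hϖ : ϖ ^ e = -(p : Qb)) (hn : 0 < n)
    (hU : Unif P H ϖ Pi e') (c : Fin n → Qb)
    (hc : ∀ j < e', ∑ i, c i * τ i (Pi ^ j) = 0) : ∀ i, c i = 0 :=
  h.dedekind hcl c (sum_apply_eq_zero h hP he hϖ hn hU c hc)

/-- The ramification index is at least the index. -/
theorem le_ramification (h : CosetData (GF P ϖ) H n τ) (hcl : IsClosed (H : Set GQ))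
    (hP : P.LiesOverPrime p) (he : 0 < e) (hϖ : ϖ ^ e = -(p : Qb)) (hn : 0 < n)
    (hU : Unif P H ϖ Pi e') : n ≤ e' := by
  let T : (Fin n → Qb) →ₗ[Qb] (Fin e' → Qb) :=
    { toFun := fun c j => ∑ i, c i * τ i (Pi ^ (j : ℕ))
      map_add' := fun c c' => by
        funext j
        simp only [_root_.Pi.add_apply, add_mul, Finset.sum_add_distrib]
      map_smul' := fun r c => by
        funext j
        simp only [_root_.Pi.smul_apply, smul_eq_mul, RingHom.id_apply, Finset.mul_sum, mul_assoc] }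
  have hinj : Function.Injective T := by
    rw [injective_iff_map_eq_zero]
    intro c hc
    funext i
    exact coeff_eq_zero h hcl hP he hϖ hn hU c (fun j hj => congrFun hc ⟨j, hj⟩) i
  have h1 := LinearMap.finrank_le_finrank_of_injective hinj
  rwa [Module.finrank_fin_fun, Module.finrank_fin_fun] at h1

/-- Expansions in the powers of the uniformiser, with `G_F`-fixed coefficients. -/
theorem exists_coeffs_and_indep (h : CosetData (GF P ϖ) H n τ) (hcl : IsClosed (H : Set GQ))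
    (hP : P.LiesOverPrime p) (he : 0 < e) (hϖ : ϖ ^ e = -(p : Qb)) (hn : 0 < n)
    (hU : Unif P H ϖ Pi n) :
    (∀ x : Qb, (∀ g ∈ H, g x = x) → ∃ a : Fin n → Qb,
      (∀ j, ∀ σ ∈ GF P ϖ, σ (a j) = a j) ∧ x = ∑ j, a j * Pi ^ (j : ℕ)) ∧
    (∀ a : Fin n → Qb, (∀ j, ∀ σ ∈ GF P ϖ, σ (a j) = a j) →
      ∑ j, a j * Pi ^ (j : ℕ) = 0 → ∀ j, a j = 0) := by
  classical
  let M : Matrix (Fin n) (Fin n) Qb := Matrix.of fun i j => τ i (Pi ^ (j : ℕ))
  have hMrow : ∀ (a : Fin n → Qb) (i : Fin n), (M.mulVec a) i = ∑ j : Fin n, τ i (Pi ^ (j : ℕ)) * a j := by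
    intro a i
    simp only [Matrix.mulVec, dotProduct, M, Matrix.of_apply]
  have hdet : M.det ≠ 0 := by
    intro hdet0
    obtain ⟨v, hv0, hv⟩ := Matrix.exists_vecMul_eq_zero_iff.mpr hdet0
    apply hv0
    funext i
    refine coeff_eq_zero h hcl hP he hϖ hn hU v (fun j hj => ?_) i
    have h1 := congrFun hv ⟨j, hj⟩
    simpa only [Matrix.vecMul, dotProduct, M, Matrix.of_apply, _root_.Pi.zero_apply] using h1
  have hdetU : IsUnit M.det := isUnit_iff_ne_zero.mpr hdet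
  have hinj : Function.Injective M.mulVec :=
    Matrix.mulVec_injective_iff_isUnit.mpr ((Matrix.isUnit_iff_isUnit_det M).mpr hdetU)
  have hPiH : ∀ j : ℕ, ∀ g ∈ H, g (Pi ^ j) = Pi ^ j := fun j g hg => by
    rw [map_pow, hU.fixed g hg]
  constructor
  · intro x hxH
    let a : Fin n → Qb := M⁻¹.mulVec (fun i => τ i x)
    have hMa : M.mulVec a = fun i => τ i x := by
      simp only [a]
      rw [Matrix.mulVec_mulVec, Matrix.mul_nonsing_inv M hdetU, Matrix.one_mulVec]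
    have hrow : ∀ i, ∑ j : Fin n, τ i (Pi ^ (j : ℕ)) * a j = τ i x := fun i => by
      rw [← hMrow a i, hMa]
    have hfix : ∀ j, ∀ σ ∈ GF P ϖ, σ (a j) = a j := by
      intro j σ hσ
      obtain ⟨π, hπ⟩ := h.exists_perm_apply hσ
      have h1 : M.mulVec (fun j => σ (a j)) = M.mulVec a := by
        funext i'
        obtain ⟨i, rfl⟩ := π.surjective i'
        rw [hMrow, hMrow, hrow (π i), ← hπ i x hxH, ← hrow i, map_sum]
        refine Finset.sum_congr rfl fun j _ => ?_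
        rw [map_mul, hπ i (Pi ^ (j : ℕ)) (hPiH j)]
      exact congrFun (hinj h1) j
    refine ⟨a, hfix, ?_⟩
    obtain ⟨i₀, hi₀⟩ := h.exists_mem
    have h2 := hrow i₀
    rw [hxH _ hi₀] at h2
    rw [← h2]
    refine Finset.sum_congr rfl fun j _ => ?_
    rw [hPiH j _ hi₀, mul_comm]
  · intro a ha hsum
    have h1 : M.mulVec a = M.mulVec 0 := by
      funext i
      rw [hMrow, Matrix.mulVec_zero, _root_.Pi.zero_apply]
      have h2 : τ i (∑ j, a j * Pi ^ (j : ℕ)) = 0 := by rw [hsum, map_zero]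
      rw [map_sum] at h2
      rw [← h2]
      refine Finset.sum_congr rfl fun j _ => ?_
      rw [map_mul, ha j (τ i) (h.mem i), mul_comm]
    intro j
    exact congrFun (hinj h1) j

/-- Integrality of the coefficients. -/
theorem coeff_mem (hP : P.LiesOverPrime p) (he : 0 < e) (hϖ : ϖ ^ e = -(p : Qb)) (hn : 0 < n)
    (hU : Unif P H ϖ Pi n) (a : Fin n → Qb) (ha : ∀ j, ∀ σ ∈ GF P ϖ, σ (a j) = a j)
    (hx : ∑ j, a j * Pi ^ (j : ℕ) ∈ P) : ∀ j, a j ∈ P := by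
  have hπ0 : 0 < P.valuation Pi := hU.val_pos
  have hπ1 : P.valuation Pi < 1 := hU.lt_one
  have hγ0 : 0 < P.valuation ϖ := Tame.val_pi_pos he hϖ
  have hterm : ∀ j, a j ≠ 0 → ∃ m : ℤ, P.valuation (a j) = P.valuation Pi ^ ((n : ℤ) * m) := by
    intro j h0
    obtain ⟨m, hm⟩ := Tame.fVal_aux hP he hϖ (a j) h0
      (fun σ hσ hσϖ => ha j σ (mem_GF.mpr ⟨hσ, hσϖ⟩))
    refine ⟨m, ?_⟩
    have h1 := (Basic.isPUnit_iff_valuation_eq_one P _).mp hm
    rw [map_div₀, map_zpow₀, div_eq_one_iff_eq (zpow_ne_zero _ hγ0.ne')] at h1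
    rw [h1, ← hU.pow, zpow_mul, zpow_natCast]
  have hterm' : ∀ j : Fin n, a j ≠ 0 → ∃ m : ℤ,
      P.valuation (a j * Pi ^ (j : ℕ)) = P.valuation Pi ^ ((n : ℤ) * m + (j : ℕ)) := by
    intro j h0
    obtain ⟨m, hm⟩ := hterm j h0
    exact ⟨m, by rw [map_mul, map_pow, hm, zpow_add₀ hπ0.ne', zpow_natCast]⟩
  have hd : ∀ i ∈ (Finset.univ : Finset (Fin n)), ∀ j ∈ (Finset.univ : Finset (Fin n)),
      a i * Pi ^ (i : ℕ) ≠ 0 → a j * Pi ^ (j : ℕ) ≠ 0 →
      P.valuation (a i * Pi ^ (i : ℕ)) = P.valuation (a j * Pi ^ (j : ℕ)) → i = j := by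
    intro i _ j _ hi hj hij
    obtain ⟨m, hm⟩ := hterm' i (left_ne_zero_of_mul hi)
    obtain ⟨m', hm'⟩ := hterm' j (left_ne_zero_of_mul hj)
    rw [hm, hm'] at hij
    have h1 : (n : ℤ) * m + (i : ℕ) = (n : ℤ) * m' + (j : ℕ) :=
      zpow_right_injective₀ hπ0 hπ1.ne hij
    have h2 := congrArg (fun z : ℤ => z % (n : ℤ)) h1
    simp only [Int.add_comm ((n : ℤ) * _), Int.add_mul_emod_self_left] at h2
    have hi' : ((i : ℕ) : ℤ) % (n : ℤ) = (i : ℕ) :=
      Int.emod_eq_of_lt (Int.natCast_nonneg _) (by exact_mod_cast i.2)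
    have hj' : ((j : ℕ) : ℤ) % (n : ℤ) = (j : ℕ) :=
      Int.emod_eq_of_lt (Int.natCast_nonneg _) (by exact_mod_cast j.2)
    rw [hi', hj'] at h2
    exact Fin.ext (by exact_mod_cast h2)
  intro j
  rcases eq_or_ne (a j) 0 with h0 | h0
  · rw [h0]
    exact P.zero_mem
  have hne : ∃ i ∈ (Finset.univ : Finset (Fin n)), a i * Pi ^ (i : ℕ) ≠ 0 :=
    ⟨j, Finset.mem_univ _, mul_ne_zero h0 (pow_ne_zero _ hU.ne_zero)⟩
  obtain ⟨i₀, -, -, hv, hmax⟩ := Tame.val_sum_eq_of_distinct P.valuation Finset.univ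
    (fun i : Fin n => a i * Pi ^ (i : ℕ)) hd hne
  have hle : P.valuation (a j * Pi ^ (j : ℕ)) ≤ 1 := by
    refine (hmax j (Finset.mem_univ _)).trans ?_
    rw [← hv]
    exact (P.valuation_le_one_iff _).mpr hx
  obtain ⟨m, hm⟩ := hterm' j h0
  obtain ⟨m₁, hm₁⟩ := hterm j h0
  have hmm : m₁ = m := by
    have h1 : P.valuation Pi ^ ((n : ℤ) * m₁ + (j : ℕ)) = P.valuation Pi ^ ((n : ℤ) * m + (j : ℕ)) := by
      rw [← hm, map_mul, map_pow, hm₁, zpow_add₀ hπ0.ne', zpow_natCast]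
    have h2 : (n : ℤ) * m₁ + (j : ℕ) = (n : ℤ) * m + (j : ℕ) :=
      zpow_right_injective₀ hπ0 hπ1.ne h1
    have hnZ : (n : ℤ) ≠ 0 := by exact_mod_cast hn.ne'
    have h3 : (n : ℤ) * m₁ = (n : ℤ) * m := by omega
    exact mul_left_cancel₀ hnZ h3
  subst hmm
  rw [hm] at hle
  have hle' : P.valuation Pi ^ ((n : ℤ) * m₁ + (j : ℕ)) ≤ P.valuation Pi ^ (0 : ℤ) := by
    rw [zpow_zero]
    exact hle
  have h1 : (0 : ℤ) ≤ (n : ℤ) * m₁ + (j : ℕ) :=
    (zpow_le_zpow_iff_right_of_lt_one₀ hπ0 hπ1).1 hle'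
  have hm0 : 0 ≤ m₁ := by
    by_contra hcon
    push Not at hcon
    have h2 : (n : ℤ) * m₁ ≤ (n : ℤ) * (-1) :=
      Int.mul_le_mul_of_nonneg_left (by omega) (Int.natCast_nonneg n)
    have h3 : ((j : ℕ) : ℤ) < (n : ℤ) := by exact_mod_cast j.2
    omega
  rw [← P.valuation_le_one_iff, hm₁]
  have h4 : P.valuation Pi ^ ((n : ℤ) * m₁) ≤ P.valuation Pi ^ (0 : ℤ) :=
    (zpow_le_zpow_iff_right_of_lt_one₀ hπ0 hπ1).2 (mul_nonneg (Int.natCast_nonneg n) hm0)
  rwa [zpow_zero] at h4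

end Setting

/-- **[MONO]** monogenicity of the valuation ring of a finite extension of `F = Qb^I(ϖ)`. -/
theorem mono : Loc.Mono := by
  intro p _ P hP e he _ ϖ hϖ H hH hopen n hn hτ
  obtain ⟨L₀, hL₀fin, hL₀⟩ := hopen
  obtain ⟨τ, hτmem, hτuniq⟩ := hτ
  have h : CosetData (GF P ϖ) H n τ :=
    ⟨fun σ hσ => mem_GF.mpr (hH σ hσ), fun i => mem_GF.mpr (hτmem i),
      fun σ hσ => hτuniq σ hσ.1 hσ.2⟩
  haveI := hL₀fin
  have hcl : IsClosed (H : Set GQ) :=
    isClosed_of_open_in (GF P ϖ) H (isClosed_GF P ϖ) h.le L₀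
      (fun σ hσ hfix => hL₀ σ hσ.1 hσ.2 hfix)
  obtain ⟨Pi, e', he', he'n, hPi0, hPiH, hPi1, hPipow, hPival⟩ := exists_unif h hP he hϖ hn
  have hU : Unif P H ϖ Pi e' := ⟨he', hPi0, hPiH, hPi1, hPipow, hPival⟩
  have hne' : n ≤ e' := le_ramification h hcl hP he hϖ hn hU
  have hen : e' = n := le_antisymm he'n hne'
  rw [hen] at hU hPipow
  obtain ⟨hspan, hind⟩ := exists_coeffs_and_indep h hcl hP he hϖ hn hU
  have hϖ0 : ϖ ≠ 0 := Tame.pi_ne_zero he hϖ
  refine ⟨Pi, (P.valuation_le_one_iff _).mp hPi1.le, hPiH, ⟨Pi ^ n / ϖ, ?_, ?_⟩, ?_, ?_⟩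
  · rw [Basic.isPUnit_iff_valuation_eq_one, map_div₀, map_pow, hPipow]
    exact div_self (Tame.val_pi_pos he hϖ).ne'
  · field_simp
  · intro x hxP hxH
    obtain ⟨a, ha, hxa⟩ := hspan x hxH
    refine ⟨a, fun i => ⟨coeff_mem hP he hϖ hn hU a ha (hxa ▸ hxP) i,
      fun σ hσ hσϖ => ha i σ (mem_GF.mpr ⟨hσ, hσϖ⟩)⟩, hxa⟩
  · intro a ha hsum
    exact hind a (fun i σ hσ => ha i σ hσ.1 hσ.2) hsum

end Fermat.Agent.TW.Flat.Loc.MonoB
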